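import Fermat.Agent.S14.H81.DegreeOne
import Fermat.Agent.S14.H32.IdealSeries
import Fermat.Agent.S14.H32.EulerFinite

/-!
# S14 / package D2 (helper81): adapters to the shapes consumed by D4 (helper32) and D3 (helper42)

The statements of `DegreeOne.lean` / `ZetaLog.lean` restated with `H32.nrm` and `H32.prm`.
-/

set_option autoImplicit false

open Filter Topology NumberField Ideal nonZeroDivisors IsDedekindDomain

namespace Fermat.Agent.S14.H81

variable (K : Type*) [Field K] [NumberField K]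

theorem nrm_prm_eq (s : ℝ) (v : HeightOneSpectrum (𝓞 K)) :
    H32.nrm K s (H32.prm v) = (absNorm v.asIdeal : ℝ) ^ (-s) := rfl

/-- **(F5)**, the shape consumed by D4: primes of non-prime norm are negligible. -/
theorem exists_bound_sum_not_prime_norm :
    ∃ C : ℝ, ∀ s : ℝ, 1 < s → ∀ S : Finset (HeightOneSpectrum (𝓞 K)),
      (∀ v ∈ S, ¬ (Ideal.absNorm v.asIdeal).Prime) →
        ∑ v ∈ S, H32.nrm K s (H32.prm v) ≤ C :=
  ⟨degC K, fun _ hs S hS ↦ sum_not_prime_le K hs.le S hS⟩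

/-- **(F1)**: finite prime sums are at most `log (1/(s-1)) + C` on `(1, 2]`. -/
theorem exists_bound_sum_prime :
    ∃ C : ℝ, ∀ s : ℝ, 1 < s → s ≤ 2 → ∀ S : Finset (HeightOneSpectrum (𝓞 K)),
      ∑ v ∈ S, H32.nrm K s (H32.prm v) ≤ Real.log (1 / (s - 1)) + C :=
  exists_sum_prime_le K

/-- **(F2)**: finite prime sums come within a constant of `log (1/(s-1))`; in fact with
degree-one primes only. -/
theorem exists_sum_degOne_ge :
    ∃ C : ℝ, ∀ s : ℝ, 1 < s → s ≤ 2 → ∃ S : Finset (HeightOneSpectrum (𝓞 K)),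
      (∀ v ∈ S, (Ideal.absNorm v.asIdeal).Prime) ∧
        Real.log (1 / (s - 1)) - C ≤ ∑ v ∈ S, H32.nrm K s (H32.prm v) := by
  classical
  obtain ⟨C, hC⟩ := exists_abs_degOneSum_sub_le K
  refine ⟨C + 1, fun s hs1 hs2 ↦ ?_⟩
  have h1 := abs_le.mp (hC s hs1 hs2)
  have hsum : Summable fun v : ↥(degOne K) ↦ (absNorm v.1.asIdeal : ℝ) ^ (-s) :=
    (summable_prime_rpow K hs1).subtype _
  obtain ⟨U, hU⟩ := ((hsum.hasSum.eventually (lt_mem_nhds (show
    ∑' v : ↥(degOne K), (absNorm v.1.asIdeal : ℝ) ^ (-s) - 1 <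
      ∑' v : ↥(degOne K), (absNorm v.1.asIdeal : ℝ) ^ (-s) by linarith))).exists)
  refine ⟨U.map (Function.Embedding.subtype _), ?_, ?_⟩
  · intro v hv
    obtain ⟨w, -, rfl⟩ := Finset.mem_map.mp hv
    exact w.2
  · rw [Finset.sum_map]
    have : ∑ x ∈ U, H32.nrm K s (H32.prm ((Function.Embedding.subtype _) x)) =
        ∑ x ∈ U, (absNorm x.1.asIdeal : ℝ) ^ (-s) := rfl
    rw [this]
    linarith [h1.1]

end Fermat.Agent.S14.H81
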