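import Fermat.Agent.S14.H81.EulerProd

/-!
# S14 / package D2 (helper81): `log ζ_K(s) = log (1/(s-1)) + O(1)` and the prime zeta sum

From Mathlib's residue theorem for the Dedekind zeta function:
`∃ C, ∀ s ∈ (1, 2], |log ζ_K(s) - log (1/(s-1))| ≤ C`, hence
`∃ C, ∀ s ∈ (1, 2], |∑_P N(P)^(-s) - log (1/(s-1))| ≤ C`.
-/

set_option autoImplicit false

open Filter Topology NumberField Ideal nonZeroDivisors IsDedekindDomain

namespace Fermat.Agent.S14.H81

variable (K : Type*) [Field K] [NumberField K]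

theorem ofReal_zetaSum {s : ℝ} (hs : 1 < s) : ((zetaSum K s : ℝ) : ℂ) = dedekindZeta K s :=
  ofReal_tsum_absNorm_rpow K hs

theorem tendsto_sub_one_mul_zetaSum :
    Tendsto (fun s : ℝ ↦ (s - 1) * zetaSum K s) (𝓝[>] 1) (𝓝 (dedekindZeta_residue K)) := by
  have h := tendsto_sub_one_mul_dedekindZeta_nhdsGT K
  have h2 := (Complex.continuous_re.tendsto _).comp h
  rw [Complex.ofReal_re] at h2
  refine h2.congr' ?_
  filter_upwards [self_mem_nhdsWithin] with s hs
  simp only [Function.comp_apply]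
  rw [← ofReal_zetaSum K hs, ← Complex.ofReal_one, ← Complex.ofReal_sub, ← Complex.ofReal_mul,
    Complex.ofReal_re]

theorem zetaSum_anti {s t : ℝ} (hs : 1 < s) (hst : s ≤ t) : zetaSum K t ≤ zetaSum K s := by
  unfold zetaSum
  refine (summable_absNorm_rpow K (hs.trans_le hst)).tsum_le_tsum (fun I ↦ ?_)
    (summable_absNorm_rpow K hs)
  have h1 : (1 : ℝ) ≤ absNorm (I : Ideal (𝓞 K)) := by
    exact_mod_cast Nat.one_le_iff_ne_zero.mpr (absNorm_ne_zero_of_nonZeroDivisors I)
  exact Real.rpow_le_rpow_of_exponent_le h1 (by linarith)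

/-- **(EP3)** `log ζ_K(s) = log (1/(s-1)) + O(1)` on `(1, 2]`. -/
theorem exists_abs_log_zetaSum_sub_le :
    ∃ C : ℝ, ∀ s : ℝ, 1 < s → s ≤ 2 →
      |Real.log (zetaSum K s) - Real.log (1 / (s - 1))| ≤ C := by
  have hρ := dedekindZeta_residue_pos K
  set ρ := dedekindZeta_residue K with hρdef
  have hnhds : Set.Icc (ρ / 2) (2 * ρ) ∈ 𝓝 ρ := Icc_mem_nhds (by linarith) (by linarith)
  have hev := (tendsto_sub_one_mul_zetaSum K).eventually (hnhds)
  rw [eventually_nhdsWithin_iff, Metric.eventually_nhds_iff] at hev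
  obtain ⟨ε, hε, hball⟩ := hev
  set δ := min ε 1 / 2 with hδdef
  have hδ0 : 0 < δ := by rw [hδdef]; positivity
  have hδε : δ < ε := by
    rw [hδdef]
    have := min_le_left ε 1
    linarith
  have hδ1 : δ ≤ 1 / 2 := by
    rw [hδdef]
    have := min_le_right ε 1
    linarith
  set C₁ := max |Real.log (ρ / 2)| |Real.log (2 * ρ)| with hC₁
  set C₂ := Real.log (zetaSum K (1 + δ)) + Real.log (1 / δ) with hC₂
  have hZ1 : 1 ≤ zetaSum K (1 + δ) := one_le_zetaSum K (by linarith)
  have hC₂0 : 0 ≤ C₂ := by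
    rw [hC₂]
    have h1 := Real.log_nonneg hZ1
    have h2 : 0 ≤ Real.log (1 / δ) := Real.log_nonneg (by
      rw [le_div_iff₀ hδ0]; linarith)
    linarith
  have hC₁0 : 0 ≤ C₁ := le_max_of_le_left (abs_nonneg _)
  refine ⟨C₁ + C₂, fun s hs1 hs2 ↦ ?_⟩
  have hZpos := zetaSum_pos K hs1
  have hs0 : 0 < s - 1 := by linarith
  by_cases hsδ : s < 1 + δ
  · -- near `1`
    have hmem : (s - 1) * zetaSum K s ∈ Set.Icc (ρ / 2) (2 * ρ) := by
      apply hball _ hs1
      rw [Real.dist_eq, abs_of_pos hs0]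
      linarith
    have hprod : 0 < (s - 1) * zetaSum K s := mul_pos hs0 hZpos
    have hl1 : Real.log (ρ / 2) ≤ Real.log ((s - 1) * zetaSum K s) :=
      Real.log_le_log (by linarith) hmem.1
    have hl2 : Real.log ((s - 1) * zetaSum K s) ≤ Real.log (2 * ρ) :=
      Real.log_le_log hprod hmem.2
    have hlog : Real.log ((s - 1) * zetaSum K s) =
        Real.log (zetaSum K s) - Real.log (1 / (s - 1)) := by
      rw [Real.log_mul hs0.ne' hZpos.ne', one_div, Real.log_inv]
      ring
    rw [← hlog]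
    have h3 : |Real.log ((s - 1) * zetaSum K s)| ≤ C₁ := by
      rw [abs_le]
      constructor
      · have := neg_abs_le (Real.log (ρ / 2))
        have := le_max_left |Real.log (ρ / 2)| |Real.log (2 * ρ)|
        linarith
      · have := le_abs_self (Real.log (2 * ρ))
        have := le_max_right |Real.log (ρ / 2)| |Real.log (2 * ρ)|
        linarith
    linarith
  · -- away from `1`
    rw [not_lt] at hsδ
    have h1 : 1 ≤ zetaSum K s := one_le_zetaSum K hs1
    have h2 : zetaSum K s ≤ zetaSum K (1 + δ) := zetaSum_anti K (by linarith) hsδ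
    have h3 : 0 ≤ Real.log (zetaSum K s) := Real.log_nonneg h1
    have h4 : Real.log (zetaSum K s) ≤ Real.log (zetaSum K (1 + δ)) := Real.log_le_log hZpos h2
    have h5 : 0 ≤ Real.log (1 / (s - 1)) := Real.log_nonneg (by
      rw [le_div_iff₀ hs0]; linarith)
    have h6 : Real.log (1 / (s - 1)) ≤ Real.log (1 / δ) := by
      apply Real.log_le_log (by positivity)
      exact one_div_le_one_div_of_le hδ0 (by linarith)
    rw [abs_le]
    constructor <;> linarith

/-- **(EP4)** The prime zeta sum: `∑_P N(P)^(-s) = log (1/(s-1)) + O(1)` on `(1, 2]`. -/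
theorem exists_abs_primeSum_sub_le :
    ∃ C : ℝ, ∀ s : ℝ, 1 < s → s ≤ 2 → |primeSum K s - Real.log (1 / (s - 1))| ≤ C := by
  obtain ⟨C, hC⟩ := exists_abs_log_zetaSum_sub_le K
  refine ⟨3 * primeC K + C, fun s hs1 hs2 ↦ ?_⟩
  have h1 := abs_primeSum_sub_log_zetaSum_le K hs1
  have h2 := hC s hs1 hs2
  calc |primeSum K s - Real.log (1 / (s - 1))|
      = |(primeSum K s - Real.log (zetaSum K s)) +
          (Real.log (zetaSum K s) - Real.log (1 / (s - 1)))| := by ring_nf
    _ ≤ |primeSum K s - Real.log (zetaSum K s)| +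
          |Real.log (zetaSum K s) - Real.log (1 / (s - 1))| := abs_add_le _ _
    _ ≤ 3 * primeC K + C := add_le_add h1 h2

end Fermat.Agent.S14.H81
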