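import Fermat.Agent.S14.H32.CutoffDefs

/-!
# S14 / package D1, second route (coordinated by helper32), step Q4: coset comparison

For nonzero ideals `J' ≤ J` of `𝓞 K` the lattice sums `cutSum K s J` and
`(N J' / N J) * cutSum K s J'` differ by a quantity bounded uniformly for `s ∈ (1, 2]`.

`J` is the disjoint union of the `[J : J'] = N J' / N J` cosets `r + J'`; termwise,
`|cutF s (ι (r + β)) - cutF s (ι β)|` is dominated by an `s`-independent summable majorant
(`1` for `β = 0`, a multiple of `‖ι β‖ ^ (-n - 1)` otherwise), by the Lipschitz estimate with decay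
for `cutF` (step Q2) and `ZLattice.summable_norm_rpow` for the lattice of integers.

Main statement: `exists_bound_cutSum_sub_of` (inputs of Q1, Q2, Q3 as explicit hypotheses).
-/

namespace Fermat.Agent.S14.H81

open NumberField NumberField.InfinitePlace NumberField.mixedEmbedding NumberField.Units
  NumberField.Units.dirichletUnitTheorem nonZeroDivisors Ideal

/-! ### Abstract coset comparison -/

section Abstract

variable {A : Type*} [AddCommGroup A] (S : AddSubgroup A)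

/-- The bijection `(q, β) ↦ out q + β` between `(A ⧸ S) × S` and `A`. -/
noncomputable def cosetEquiv : (A ⧸ S) × S ≃ A where
  toFun p := Quotient.out p.1 + (p.2 : A)
  invFun a := (QuotientAddGroup.mk a, ⟨-Quotient.out (QuotientAddGroup.mk a : A ⧸ S) + a, by
    rw [← QuotientAddGroup.eq]; exact QuotientAddGroup.out_eq' _⟩)
  left_inv := by
    rintro ⟨q, β⟩
    have h1 : (QuotientAddGroup.mk (Quotient.out q + (β : A)) : A ⧸ S) = q := by
      rw [QuotientAddGroup.mk_add, QuotientAddGroup.out_eq']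
      simp
    ext
    · exact h1
    · simp [h1]
  right_inv := by
    intro a
    simp

theorem cosetEquiv_apply (p : (A ⧸ S) × S) :
    cosetEquiv S p = Quotient.out p.1 + (p.2 : A) := rfl

theorem abs_tsum_sub_card_mul_tsum_le [Fintype (A ⧸ S)] (F : A → ℝ) (hF : Summable F)
    (G : (A ⧸ S) → S → ℝ) (hG : ∀ q, Summable (G q))
    (hFG : ∀ q (β : S), |F (Quotient.out q + (β : A)) - F β| ≤ G q β) :
    |∑' a, F a - (Fintype.card (A ⧸ S) : ℝ) * ∑' b : S, F b| ≤ ∑ q, ∑' β, G q β := by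
  have hF' : Summable (fun p : (A ⧸ S) × S => F (cosetEquiv S p)) :=
    (cosetEquiv S).summable_iff.mpr hF
  have hq : ∀ q : A ⧸ S, Summable (fun β : S => F (Quotient.out q + (β : A))) := fun q =>
    hF.comp_injective (f := F) (i := fun β : S => Quotient.out q + (β : A))
      (by intro x y h; simpa using h)
  have hS : Summable (fun b : S => F b) := hF.subtype _
  have h1 : ∑' a, F a = ∑ q : A ⧸ S, ∑' β : S, F (Quotient.out q + (β : A)) := by
    rw [← (cosetEquiv S).tsum_eq F, hF'.tsum_prod' (fun q => hq q), tsum_fintype]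
    rfl
  have h2 : (Fintype.card (A ⧸ S) : ℝ) * ∑' b : S, F b = ∑ _q : A ⧸ S, ∑' β : S, F β := by
    simp
  rw [h1, h2, ← Finset.sum_sub_distrib]
  refine (Finset.abs_sum_le_sum_abs _ _).trans (Finset.sum_le_sum fun q _ => ?_)
  rw [← (hq q).tsum_sub hS]
  have h3 := tsum_of_norm_bounded (f := fun β : S => F (Quotient.out q + (β : A)) - F β)
    (hG q).hasSum (fun β => by rw [Real.norm_eq_abs]; exact hFG q β)
  rwa [Real.norm_eq_abs] at h3

end Abstract

/-! ### The lattice of integers of a number field -/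

section Concrete

open Fermat.Agent.S14.H32

variable (K : Type*) [Field K] [NumberField K]

theorem cutF_zero (s : ℝ) : cutF K s 0 = 0 := by
  simp [cutF, cutW]

theorem one_le_norm_of_ne_zero {α : 𝓞 K} (hα : α ≠ 0) :
    1 ≤ mixedEmbedding.norm (mixedEmbedding K (α : K)) := by
  rw [mixedEmbedding.norm_eq_norm, ← Algebra.coe_norm_int]
  have h : Algebra.norm ℤ α ≠ 0 := Algebra.norm_ne_zero_iff.mpr hα
  have h1 : (1 : ℤ) ≤ |Algebra.norm ℤ α| := Int.one_le_abs h
  have h2 : ((1 : ℤ) : ℝ) ≤ ((|Algebra.norm ℤ α| : ℤ) : ℝ) := by exact_mod_cast h1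
  simpa using h2

theorem cutF_mem_Icc (hW0 : ∀ x : mixedSpace K, 0 ≤ cutW K x)
    (hW1 : ∀ x : mixedSpace K, cutW K x ≤ 1) {s : ℝ} (hs : 0 ≤ s) (α : 𝓞 K) :
    0 ≤ cutF K s (mixedEmbedding K (α : K)) ∧ cutF K s (mixedEmbedding K (α : K)) ≤ 1 := by
  by_cases hα : α = 0
  · subst hα
    simp [cutF_zero]
  · have h1 := one_le_norm_of_ne_zero K hα
    have h2 : mixedEmbedding.norm (mixedEmbedding K (α : K)) ^ (-s) ≤ 1 :=
      Real.rpow_le_one_of_one_le_of_nonpos h1 (by linarith)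
    have h3 : 0 ≤ mixedEmbedding.norm (mixedEmbedding K (α : K)) ^ (-s) :=
      Real.rpow_nonneg (by linarith) _
    refine ⟨mul_nonneg (hW0 _) h3, ?_⟩
    calc cutF K s (mixedEmbedding K (α : K)) ≤ 1 * 1 := mul_le_mul (hW1 _) h2 h3 zero_le_one
      _ = 1 := one_mul 1

omit [NumberField K] in
theorem mem_integerLattice_aux (β : 𝓞 K) :
    mixedEmbedding K (β : K) ∈ mixedEmbedding.integerLattice K :=
  LinearMap.mem_range_self _ β

open scoped Classical in
theorem finrank_integerLattice_aux :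
    Module.finrank ℤ (mixedEmbedding.integerLattice K) = Module.finrank ℚ K := by
  rw [ZLattice.rank ℝ, mixedEmbedding.finrank]

open scoped Classical in
theorem summable_norm_rpow_integerLattice :
    Summable (fun z : mixedEmbedding.integerLattice K =>
      ‖z‖ ^ (-(Module.finrank ℚ K : ℝ) - 1)) := by
  have hr : (-(Module.finrank ℚ K : ℝ) - 1) <
      -(Module.finrank ℤ (mixedEmbedding.integerLattice K) : ℝ) := by
    rw [finrank_integerLattice_aux]; linarith
  exact ZLattice.summable_norm_rpow (mixedEmbedding.integerLattice K) _ hr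

theorem injective_integerLattice_aux : Function.Injective (fun β : 𝓞 K =>
    (⟨mixedEmbedding K (β : K), mem_integerLattice_aux K β⟩ :
      mixedEmbedding.integerLattice K)) := by
  intro x y hxy
  have h1 : mixedEmbedding K (x : K) = mixedEmbedding K (y : K) := congrArg Subtype.val hxy
  exact RingOfIntegers.ext ((mixedEmbedding_injective K) h1)

open scoped Classical in
theorem summable_norm_rpow_ringOfIntegers :
    Summable (fun β : 𝓞 K => ‖mixedEmbedding K (β : K)‖ ^ (-(Module.finrank ℚ K : ℝ) - 1)) := by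
  have h2 := (summable_norm_rpow_integerLattice K).comp_injective (injective_integerLattice_aux K)
  exact h2

open scoped Classical in
/-- The `s`-independent majorant of `β ↦ |cutF s (ι (r + β)) - cutF s (ι β)|`. -/
noncomputable def cosetMaj (C : ℝ) (r β : 𝓞 K) : ℝ :=
  if β = 0 then 1 else
    ((2 * ‖mixedEmbedding K (r : K)‖ + 2) ^ ((Module.finrank ℚ K : ℝ) + 1) +
      C * ‖mixedEmbedding K (r : K)‖ * 2 ^ ((Module.finrank ℚ K : ℝ) + 1)) *
      ‖mixedEmbedding K (β : K)‖ ^ (-(Module.finrank ℚ K : ℝ) - 1)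

open scoped Classical in
theorem summable_cosetMaj (C : ℝ) (r : 𝓞 K) : Summable (cosetMaj K C r) := by
  have h1 := (summable_norm_rpow_ringOfIntegers K).mul_left
    ((2 * ‖mixedEmbedding K (r : K)‖ + 2) ^ ((Module.finrank ℚ K : ℝ) + 1) +
      C * ‖mixedEmbedding K (r : K)‖ * 2 ^ ((Module.finrank ℚ K : ℝ) + 1))
  have h2 : Summable (fun β : 𝓞 K => if β = 0 then (1 : ℝ) else 0) :=
    (hasSum_ite_eq (0 : 𝓞 K) (1 : ℝ)).summable
  refine (h2.add h1).congr fun β => ?_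
  unfold cosetMaj
  by_cases hβ : β = 0
  · subst hβ
    have hn : (-(Module.finrank ℚ K : ℝ) - 1) ≠ 0 := by
      have : (0 : ℝ) ≤ (Module.finrank ℚ K : ℝ) := Nat.cast_nonneg _
      linarith
    simp [Real.zero_rpow hn]
  · simp [hβ]

open scoped Classical in
theorem abs_cutF_add_sub_le (hW0 : ∀ x : mixedSpace K, 0 ≤ cutW K x)
    (hW1 : ∀ x : mixedSpace K, cutW K x ≤ 1) {C : ℝ} (hC : 0 ≤ C)
    (hLip : ∀ s : ℝ, 1 ≤ s → s ≤ 2 → ∀ T : ℝ, 1 ≤ T → ∀ x y : mixedSpace K,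
      T ≤ ‖x‖ → T ≤ ‖y‖ →
      |cutF K s x - cutF K s y| ≤ C * ‖x - y‖ * T ^ (-(Module.finrank ℚ K : ℝ) - 1))
    {s : ℝ} (hs1 : 1 ≤ s) (hs2 : s ≤ 2) (r β : 𝓞 K) :
    |cutF K s (mixedEmbedding K ((r + β : 𝓞 K) : K)) - cutF K s (mixedEmbedding K (β : K))| ≤
      cosetMaj K C r β := by
  have hb1 := cutF_mem_Icc K hW0 hW1 (by linarith : (0 : ℝ) ≤ s) (r + β)
  have hb2 := cutF_mem_Icc K hW0 hW1 (by linarith : (0 : ℝ) ≤ s) β
  have habs : |cutF K s (mixedEmbedding K ((r + β : 𝓞 K) : K)) -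
      cutF K s (mixedEmbedding K (β : K))| ≤ 1 := by
    rw [abs_le]; constructor <;> linarith [hb1.1, hb1.2, hb2.1, hb2.2]
  unfold cosetMaj
  split_ifs with hβ
  · exact habs
  · have hadd : mixedEmbedding K ((r + β : 𝓞 K) : K) =
        mixedEmbedding K (r : K) + mixedEmbedding K (β : K) := by
      rw [show ((r + β : 𝓞 K) : K) = (r : K) + (β : K) from map_add (algebraMap (𝓞 K) K) r β,
        map_add]
    rw [hadd] at habs ⊢
    generalize hM : ‖mixedEmbedding K (r : K)‖ = M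
    generalize hN : ‖mixedEmbedding K (β : K)‖ = N
    generalize hn : (Module.finrank ℚ K : ℝ) = n
    have hn0 : 0 ≤ n := by rw [← hn]; exact Nat.cast_nonneg _
    have hM0 : 0 ≤ M := by rw [← hM]; exact norm_nonneg _
    have hN0 : 0 < N := by
      rw [← hN, norm_pos_iff]
      intro h0
      apply hβ
      have h1 : mixedEmbedding K (β : K) = mixedEmbedding K ((0 : 𝓞 K) : K) := by
        rw [h0]; simp
      exact RingOfIntegers.ext ((mixedEmbedding_injective K) h1)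
    have hNn : N ^ (-n - 1) = (N ^ (n + 1))⁻¹ := by
      rw [← Real.rpow_neg hN0.le]; congr 1; ring
    have hNpos : 0 < N ^ (n + 1) := Real.rpow_pos_of_pos hN0 _
    rw [add_mul]
    by_cases hlt : N < 2 * M + 2
    · have h1 : 1 ≤ (2 * M + 2) ^ (n + 1) * N ^ (-n - 1) := by
        rw [hNn, ← div_eq_mul_inv, one_le_div hNpos]
        exact Real.rpow_le_rpow hN0.le hlt.le (by linarith)
      have h2 : 0 ≤ C * M * 2 ^ (n + 1) * N ^ (-n - 1) := by
        rw [hNn]; positivity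
      linarith
    · rw [not_lt] at hlt
      have hT : 1 ≤ N / 2 := by linarith
      have hx : N / 2 ≤ ‖mixedEmbedding K (r : K) + mixedEmbedding K (β : K)‖ := by
        have h3 : ‖mixedEmbedding K (β : K)‖ ≤
            ‖mixedEmbedding K (r : K) + mixedEmbedding K (β : K)‖ + ‖mixedEmbedding K (r : K)‖ := by
          have h4 := norm_sub_le (mixedEmbedding K (r : K) + mixedEmbedding K (β : K))
            (mixedEmbedding K (r : K))
          rwa [add_sub_cancel_left] at h4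
        rw [hM, hN] at h3
        linarith
      have hy : N / 2 ≤ ‖mixedEmbedding K (β : K)‖ := by rw [hN]; linarith
      have h := hLip s hs1 hs2 (N / 2) hT _ _ hx hy
      rw [add_sub_cancel_right, hM, hn] at h
      have h3 : (N / 2) ^ (-n - 1) = 2 ^ (n + 1) * N ^ (-n - 1) := by
        rw [Real.div_rpow hN0.le (by norm_num), div_eq_mul_inv, mul_comm,
          ← Real.rpow_neg (by norm_num : (0 : ℝ) ≤ 2)]
        congr 2; ring
      have h4 : 0 ≤ (2 * M + 2) ^ (n + 1) * N ^ (-n - 1) := by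
        rw [hNn]; positivity
      calc _ ≤ C * M * (N / 2) ^ (-n - 1) := h
        _ = C * M * 2 ^ (n + 1) * N ^ (-n - 1) := by rw [h3]; ring
        _ ≤ _ := by linarith

omit [NumberField K] in
theorem indicator_ideal_ne_zero (F : 𝓞 K → ℝ) (hF0 : F 0 = 0) (I : Ideal (𝓞 K)) :
    Set.indicator {α : 𝓞 K | α ∈ I ∧ α ≠ 0} F =
      Set.indicator (I.toAddSubgroup : Set (𝓞 K)) F := by
  ext α
  by_cases hα : α = 0
  · subst hα; simp [hF0]
  · by_cases hI : α ∈ I <;> simp [Set.indicator, hα, hI]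

omit [NumberField K] in
theorem tsum_ideal_ne_zero_eq (F : 𝓞 K → ℝ) (hF0 : F 0 = 0) (I : Ideal (𝓞 K)) :
    (∑' α : {α : 𝓞 K // α ∈ I ∧ α ≠ 0}, F α) = ∑' a : I.toAddSubgroup, F a := by
  have h1 := tsum_subtype {α : 𝓞 K | α ∈ I ∧ α ≠ 0} F
  have h2 := tsum_subtype (I.toAddSubgroup : Set (𝓞 K)) F
  rw [indicator_ideal_ne_zero K F hF0 I] at h1
  exact h1.trans h2.symm

omit [NumberField K] in
theorem summable_ideal_of_ne_zero (F : 𝓞 K → ℝ) (hF0 : F 0 = 0) (I : Ideal (𝓞 K))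
    (h : Summable (fun α : {α : 𝓞 K // α ∈ I ∧ α ≠ 0} => F α)) :
    Summable (fun a : I.toAddSubgroup => F a) := by
  have h1 := (summable_subtype_iff_indicator (s := {α : 𝓞 K | α ∈ I ∧ α ≠ 0}) (f := F)).mp h
  rw [indicator_ideal_ne_zero K F hF0 I] at h1
  exact (summable_subtype_iff_indicator (s := (I.toAddSubgroup : Set (𝓞 K))) (f := F)).mpr h1

open scoped Classical in
theorem exists_bound_subgroup_sub (hW0 : ∀ x : mixedSpace K, 0 ≤ cutW K x)
    (hW1 : ∀ x : mixedSpace K, cutW K x ≤ 1) {C : ℝ} (hC : 0 ≤ C)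
    (hLip : ∀ s : ℝ, 1 ≤ s → s ≤ 2 → ∀ T : ℝ, 1 ≤ T → ∀ x y : mixedSpace K,
      T ≤ ‖x‖ → T ≤ ‖y‖ →
      |cutF K s x - cutF K s y| ≤ C * ‖x - y‖ * T ^ (-(Module.finrank ℚ K : ℝ) - 1))
    (H H' : AddSubgroup (𝓞 K)) (hle : H' ≤ H) (hfin : H'.relIndex H ≠ 0) :
    ∃ B : ℝ, ∀ s : ℝ, 1 < s → s ≤ 2 →
      Summable (fun a : H => cutF K s (mixedEmbedding K ((a : 𝓞 K) : K))) →
      |∑' a : H, cutF K s (mixedEmbedding K ((a : 𝓞 K) : K)) -
        (H'.relIndex H : ℝ) * ∑' b : H', cutF K s (mixedEmbedding K ((b : 𝓞 K) : K))| ≤ B := by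
  have : (H'.addSubgroupOf H).FiniteIndex := ⟨hfin⟩
  have : Finite (H ⧸ H'.addSubgroupOf H) := AddSubgroup.finite_quotient_of_finiteIndex
  let _ : Fintype (H ⧸ H'.addSubgroupOf H) := Fintype.ofFinite _
  have hcard : Fintype.card (H ⧸ H'.addSubgroupOf H) = H'.relIndex H := by
    rw [← Nat.card_eq_fintype_card]; rfl
  refine ⟨∑ q : H ⧸ H'.addSubgroupOf H, ∑' β : H'.addSubgroupOf H,
    cosetMaj K C ((Quotient.out q : H) : 𝓞 K) ((β : H) : 𝓞 K), fun s hs1 hs2 hsum => ?_⟩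
  have e2 : ∑' b : H', cutF K s (mixedEmbedding K ((b : 𝓞 K) : K)) =
      ∑' b : H'.addSubgroupOf H, cutF K s (mixedEmbedding K (((b : H) : 𝓞 K) : K)) :=
    ((AddSubgroup.addSubgroupOfEquivOfLe hle).toEquiv.tsum_eq
      (fun a : H' => cutF K s (mixedEmbedding K ((a : 𝓞 K) : K)))).symm
  rw [e2, ← hcard]
  exact abs_tsum_sub_card_mul_tsum_le (H'.addSubgroupOf H)
    (fun a : H => cutF K s (mixedEmbedding K ((a : 𝓞 K) : K))) hsum _
    (fun q => (summable_cosetMaj K C _).comp_injective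
      (i := fun β : H'.addSubgroupOf H => ((β : H) : 𝓞 K))
      (Subtype.val_injective.comp Subtype.val_injective))
    (fun q β => abs_cutF_add_sub_le K hW0 hW1 hC hLip hs1.le hs2 _ _)

open scoped Classical in
/-- **Q4** of the second route to D1 (coset comparison), with the inputs from Q1 (`cutW` takes
values in `[0, 1]`), Q2 (Lipschitz estimate with decay) and Q3 (summability) as explicit
hypotheses. -/
theorem exists_bound_cutSum_sub_of (hW0 : ∀ x : mixedSpace K, 0 ≤ cutW K x)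
    (hW1 : ∀ x : mixedSpace K, cutW K x ≤ 1)
    (hLip : ∃ C : ℝ, 0 ≤ C ∧ ∀ s : ℝ, 1 ≤ s → s ≤ 2 → ∀ T : ℝ, 1 ≤ T → ∀ x y : mixedSpace K,
      T ≤ ‖x‖ → T ≤ ‖y‖ →
      |cutF K s x - cutF K s y| ≤ C * ‖x - y‖ * T ^ (-(Module.finrank ℚ K : ℝ) - 1))
    (hSum : ∀ (I : (Ideal (𝓞 K))⁰) (s : ℝ), 1 < s →
      Summable (fun α : {α : 𝓞 K // α ∈ (I : Ideal (𝓞 K)) ∧ α ≠ 0} ↦
        cutF K s (mixedEmbedding K (α : 𝓞 K))))
    (J J' : (Ideal (𝓞 K))⁰) (hJ : (J' : Ideal (𝓞 K)) ≤ (J : Ideal (𝓞 K))) :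
    ∃ B : ℝ, ∀ s : ℝ, 1 < s → s ≤ 2 →
      |cutSum K s (J : Ideal (𝓞 K)) -
        ((absNorm (J' : Ideal (𝓞 K)) : ℝ) / (absNorm (J : Ideal (𝓞 K)) : ℝ)) *
          cutSum K s (J' : Ideal (𝓞 K))| ≤ B := by
  obtain ⟨C, hC, hLip⟩ := hLip
  have hle : (J' : Ideal (𝓞 K)).toAddSubgroup ≤ (J : Ideal (𝓞 K)).toAddSubgroup :=
    fun x hx => hJ hx
  have hidx := AddSubgroup.relIndex_mul_index hle
  have hH : ∀ I : Ideal (𝓞 K), I.toAddSubgroup.index = absNorm I := fun I => by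
    rw [Ideal.absNorm_apply, Submodule.cardQuot_apply]; rfl
  rw [hH, hH] at hidx
  have hJ0 : absNorm (J : Ideal (𝓞 K)) ≠ 0 := by
    rw [Ne, Ideal.absNorm_eq_zero_iff]; exact nonZeroDivisors.coe_ne_zero J
  have hJ'0 : absNorm (J' : Ideal (𝓞 K)) ≠ 0 := by
    rw [Ne, Ideal.absNorm_eq_zero_iff]; exact nonZeroDivisors.coe_ne_zero J'
  have hfin : (J' : Ideal (𝓞 K)).toAddSubgroup.relIndex (J : Ideal (𝓞 K)).toAddSubgroup ≠ 0 := by
    intro h0; rw [h0, zero_mul] at hidx; exact hJ'0 hidx.symm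
  obtain ⟨B, hB⟩ := exists_bound_subgroup_sub K hW0 hW1 hC hLip _ _ hle hfin
  refine ⟨B, fun s hs1 hs2 => ?_⟩
  have hF0 : (fun α : 𝓞 K => cutF K s (mixedEmbedding K (α : K))) 0 = 0 := by
    simp [cutF_zero]
  have e1 : (∑' α : {α : 𝓞 K // α ∈ (J : Ideal (𝓞 K)) ∧ α ≠ 0},
        cutF K s (mixedEmbedding K ((α : 𝓞 K) : K))) =
      ∑' a : (J : Ideal (𝓞 K)).toAddSubgroup, cutF K s (mixedEmbedding K ((a : 𝓞 K) : K)) :=
    tsum_ideal_ne_zero_eq K (fun α => cutF K s (mixedEmbedding K (α : K))) hF0 _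
  have e2 : (∑' α : {α : 𝓞 K // α ∈ (J' : Ideal (𝓞 K)) ∧ α ≠ 0},
        cutF K s (mixedEmbedding K ((α : 𝓞 K) : K))) =
      ∑' a : (J' : Ideal (𝓞 K)).toAddSubgroup, cutF K s (mixedEmbedding K ((a : 𝓞 K) : K)) :=
    tsum_ideal_ne_zero_eq K (fun α => cutF K s (mixedEmbedding K (α : K))) hF0 _
  have hs : Summable (fun a : (J : Ideal (𝓞 K)).toAddSubgroup =>
      cutF K s (mixedEmbedding K ((a : 𝓞 K) : K))) :=
    summable_ideal_of_ne_zero K (fun α => cutF K s (mixedEmbedding K (α : K))) hF0 _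
      (hSum J s hs1)
  have hdiv : (absNorm (J' : Ideal (𝓞 K)) : ℝ) / (absNorm (J : Ideal (𝓞 K)) : ℝ) =
      (((J' : Ideal (𝓞 K)).toAddSubgroup.relIndex (J : Ideal (𝓞 K)).toAddSubgroup : ℕ) : ℝ) := by
    rw [div_eq_iff (by exact_mod_cast hJ0)]; exact_mod_cast hidx.symm
  unfold cutSum
  rw [hdiv, e1, e2]
  exact hB s hs1 hs2 hs

end Concrete

end Fermat.Agent.S14.H81
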