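import Fermat.Agent.S14.H81.ZetaLog

/-!
# S14 / package D2 (helper81): primes of residue degree `≥ 2` are negligible

At most `[K : ℚ]` primes of `𝓞 K` contain a given rational prime `p`, and a prime whose norm is
not a prime number has norm `≥ p ^ 2`. Hence `∑ N(P)^(-s)` over the primes with non-prime norm
is bounded uniformly in `s ≥ 1`, and the primes of prime norm carry
`log (1/(s-1)) + O(1)` of the prime zeta sum.
-/

set_option autoImplicit false

open Filter Topology NumberField Ideal nonZeroDivisors IsDedekindDomain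

namespace Fermat.Agent.S14.H81

variable (K : Type*) [Field K] [NumberField K]

/-- The rational prime below a prime of `𝓞 K`, as the least prime factor of its norm. -/
noncomputable def ratPrime (v : HeightOneSpectrum (𝓞 K)) : ℕ := (absNorm v.asIdeal).minFac

theorem ratPrime_spec (v : HeightOneSpectrum (𝓞 K)) :
    (ratPrime K v).Prime ∧ ((ratPrime K v : ℕ) : 𝓞 K) ∈ v.asIdeal ∧
      ∃ n : ℕ, 0 < n ∧ absNorm v.asIdeal = ratPrime K v ^ n := by
  have := v.isMaximal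
  obtain ⟨p, n, hn, hpv, hp, hN⟩ := exists_prime_and_absNorm_eq_pow v.asIdeal
  have hmin : ratPrime K v = p := by
    unfold ratPrime
    rw [hN]
    exact hp.pow_minFac hn.ne'
  rw [hmin]
  exact ⟨hp, hpv, n, hn, hN⟩

theorem ratPrime_prime (v : HeightOneSpectrum (𝓞 K)) : (ratPrime K v).Prime :=
  (ratPrime_spec K v).1

theorem ratPrime_mem (v : HeightOneSpectrum (𝓞 K)) :
    ((ratPrime K v : ℕ) : 𝓞 K) ∈ v.asIdeal := (ratPrime_spec K v).2.1

theorem ratPrime_le_absNorm (v : HeightOneSpectrum (𝓞 K)) : ratPrime K v ≤ absNorm v.asIdeal := by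
  obtain ⟨-, -, n, hn, hN⟩ := ratPrime_spec K v
  rw [hN]
  exact Nat.le_self_pow hn.ne' _

theorem ratPrime_sq_le_absNorm (v : HeightOneSpectrum (𝓞 K))
    (hv : ¬ (absNorm v.asIdeal).Prime) : ratPrime K v ^ 2 ≤ absNorm v.asIdeal := by
  obtain ⟨hp, -, n, hn, hN⟩ := ratPrime_spec K v
  have hn2 : 2 ≤ n := by
    by_contra h
    have : n = 1 := by omega
    rw [this, pow_one] at hN
    exact hv (hN ▸ hp)
  rw [hN]
  exact Nat.pow_le_pow_right hp.pos hn2

/-- At most `[K : ℚ]` primes of `𝓞 K` contain a given rational prime. -/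
theorem card_le_of_ratPrime_eq (p : ℕ) (T : Finset (HeightOneSpectrum (𝓞 K)))
    (hT : ∀ v ∈ T, ratPrime K v = p) : T.card ≤ Module.finrank ℤ (𝓞 K) := by
  classical
  rcases T.eq_empty_or_nonempty with rfl | ⟨v₀, hv₀⟩
  · simp
  have hp : p.Prime := hT v₀ hv₀ ▸ ratPrime_prime K v₀
  have hinj : Set.InjOn (fun v : HeightOneSpectrum (𝓞 K) ↦ v.asIdeal) (T : Set _) :=
    fun v _ w _ h ↦ HeightOneSpectrum.ext h
  have hdvd : ∏ I ∈ T.image (fun v : HeightOneSpectrum (𝓞 K) ↦ v.asIdeal), I ∣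
      Ideal.span {((p : ℕ) : 𝓞 K)} := by
    refine Finset.prod_primes_dvd _ ?_ ?_
    · intro I hI
      obtain ⟨v, -, rfl⟩ := Finset.mem_image.mp hI
      exact v.prime
    · intro I hI
      obtain ⟨v, hv, rfl⟩ := Finset.mem_image.mp hI
      rw [dvd_span_singleton, ← hT v hv]
      exact ratPrime_mem K v
  rw [Finset.prod_image hinj] at hdvd
  have hnorm : absNorm (∏ v ∈ T, v.asIdeal) ∣ p ^ Module.finrank ℤ (𝓞 K) := by
    have := map_dvd (absNorm (S := 𝓞 K)) hdvd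
    rwa [absNorm_span_natCast] at this
  rw [map_prod] at hnorm
  have hle : p ^ T.card ≤ ∏ v ∈ T, absNorm v.asIdeal := by
    rw [← Finset.prod_const]
    exact Finset.prod_le_prod' fun v hv ↦ hT v hv ▸ ratPrime_le_absNorm K v
  have hle2 : ∏ v ∈ T, absNorm v.asIdeal ≤ p ^ Module.finrank ℤ (𝓞 K) :=
    Nat.le_of_dvd (pow_pos hp.pos _) hnorm
  exact (Nat.pow_le_pow_iff_right hp.one_lt).mp (hle.trans hle2)

/-- The constant bounding the contribution of the primes of non-prime norm. -/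
noncomputable def degC : ℝ := Module.finrank ℤ (𝓞 K) * ∑' n : ℕ, ((n : ℝ) ^ 2)⁻¹

theorem degC_nonneg : 0 ≤ degC K :=
  mul_nonneg (Nat.cast_nonneg _) (tsum_nonneg fun _ ↦ by positivity)

/-- **(EP5)** The primes of non-prime norm contribute a bounded amount, uniformly in `s ≥ 1`. -/
theorem sum_not_prime_le {s : ℝ} (hs : 1 ≤ s) (U : Finset (HeightOneSpectrum (𝓞 K)))
    (hU : ∀ v ∈ U, ¬ (absNorm v.asIdeal).Prime) :
    ∑ v ∈ U, (absNorm v.asIdeal : ℝ) ^ (-s) ≤ degC K := by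
  classical
  have hsum : Summable fun n : ℕ ↦ ((n : ℝ) ^ 2)⁻¹ := Real.summable_nat_pow_inv.mpr one_lt_two
  have h1 : ∀ v ∈ U, (absNorm v.asIdeal : ℝ) ^ (-s) ≤ ((ratPrime K v : ℝ) ^ 2)⁻¹ := by
    intro v hv
    have hp := (ratPrime_prime K v).pos
    have hsq : ((ratPrime K v : ℝ) ^ 2) ≤ absNorm v.asIdeal := by
      exact_mod_cast ratPrime_sq_le_absNorm K v (hU v hv)
    have hpos : (0 : ℝ) < (ratPrime K v : ℝ) ^ 2 := by positivity
    have hN1 : (1 : ℝ) ≤ absNorm v.asIdeal := le_trans (by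
      have : (1 : ℝ) ≤ (ratPrime K v : ℝ) := by exact_mod_cast hp
      nlinarith) hsq
    calc (absNorm v.asIdeal : ℝ) ^ (-s) ≤ (absNorm v.asIdeal : ℝ) ^ (-1 : ℝ) :=
          Real.rpow_le_rpow_of_exponent_le hN1 (by linarith)
      _ = ((absNorm v.asIdeal : ℝ))⁻¹ := Real.rpow_neg_one _
      _ ≤ ((ratPrime K v : ℝ) ^ 2)⁻¹ := inv_anti₀ hpos hsq
  calc ∑ v ∈ U, (absNorm v.asIdeal : ℝ) ^ (-s)
      ≤ ∑ v ∈ U, ((ratPrime K v : ℝ) ^ 2)⁻¹ := Finset.sum_le_sum h1
    _ = ∑ p ∈ U.image (ratPrime K), ∑ v ∈ U with ratPrime K v = p, ((ratPrime K v : ℝ) ^ 2)⁻¹ :=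
        (Finset.sum_fiberwise_of_maps_to (fun v hv ↦ Finset.mem_image_of_mem _ hv) _).symm
    _ ≤ ∑ p ∈ U.image (ratPrime K), (Module.finrank ℤ (𝓞 K) : ℝ) * ((p : ℝ) ^ 2)⁻¹ := by
        refine Finset.sum_le_sum fun p _ ↦ ?_
        have hc : ∑ v ∈ U with ratPrime K v = p, ((ratPrime K v : ℝ) ^ 2)⁻¹ =
            ((U.filter fun v ↦ ratPrime K v = p).card : ℝ) * ((p : ℝ) ^ 2)⁻¹ := by
          rw [← nsmul_eq_mul, ← Finset.sum_const]
          exact Finset.sum_congr rfl fun v hv ↦ by rw [(Finset.mem_filter.mp hv).2]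
        rw [hc]
        have hcard : (U.filter fun v ↦ ratPrime K v = p).card ≤ Module.finrank ℤ (𝓞 K) :=
          card_le_of_ratPrime_eq K p _ fun v hv ↦ (Finset.mem_filter.mp hv).2
        exact mul_le_mul_of_nonneg_right (by exact_mod_cast hcard) (by positivity)
    _ = (Module.finrank ℤ (𝓞 K) : ℝ) * ∑ p ∈ U.image (ratPrime K), ((p : ℝ) ^ 2)⁻¹ := by
        rw [Finset.mul_sum]
    _ ≤ degC K := by
        unfold degC
        exact mul_le_mul_of_nonneg_left (hsum.sum_le_tsum _ fun _ _ ↦ by positivity)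
          (Nat.cast_nonneg _)

/-- The set of primes of `𝓞 K` whose norm is a prime number ("degree one"). -/
def degOne : Set (HeightOneSpectrum (𝓞 K)) := {v | (absNorm v.asIdeal).Prime}

theorem tsum_compl_degOne_le {s : ℝ} (hs : 1 ≤ s) :
    ∑' v : ↥(degOne K)ᶜ, (absNorm v.1.asIdeal : ℝ) ^ (-s) ≤ degC K := by
  classical
  refine Real.tsum_le_of_sum_le (fun _ ↦ by positivity) fun U ↦ ?_
  have h := sum_not_prime_le K hs (U.map (Function.Embedding.subtype _)) (by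
    intro v hv
    obtain ⟨w, -, rfl⟩ := Finset.mem_map.mp hv
    exact w.2)
  rwa [Finset.sum_map] at h

/-- The prime zeta sum splits into the degree-one part and the rest. -/
theorem tsum_degOne_add {s : ℝ} (hs : 1 < s) :
    ∑' v : ↥(degOne K), (absNorm v.1.asIdeal : ℝ) ^ (-s) +
      ∑' v : ↥(degOne K)ᶜ, (absNorm v.1.asIdeal : ℝ) ^ (-s) = primeSum K s :=
  (summable_prime_rpow K hs).tsum_subtype_add_tsum_subtype_compl (degOne K)

/-- **(EP6)** The degree-one primes carry `log (1/(s-1)) + O(1)`. -/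
theorem exists_abs_degOneSum_sub_le :
    ∃ C : ℝ, ∀ s : ℝ, 1 < s → s ≤ 2 →
      |∑' v : ↥(degOne K), (absNorm v.1.asIdeal : ℝ) ^ (-s) - Real.log (1 / (s - 1))| ≤ C := by
  obtain ⟨C, hC⟩ := exists_abs_primeSum_sub_le K
  refine ⟨C + degC K, fun s hs1 hs2 ↦ ?_⟩
  have h1 := abs_le.mp (hC s hs1 hs2)
  have h2 := tsum_degOne_add K hs1
  have h3 := tsum_compl_degOne_le K hs1.le
  have h4 : 0 ≤ ∑' v : ↥(degOne K)ᶜ, (absNorm v.1.asIdeal : ℝ) ^ (-s) :=
    tsum_nonneg fun _ ↦ by positivity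
  have h5 := degC_nonneg K
  rw [abs_le]
  constructor <;> linarith [h1.1, h1.2]

/-- Finite-sum form of the upper bound in **(EP4)**. -/
theorem exists_sum_prime_le :
    ∃ C : ℝ, ∀ s : ℝ, 1 < s → s ≤ 2 → ∀ T : Finset (HeightOneSpectrum (𝓞 K)),
      ∑ v ∈ T, (absNorm v.asIdeal : ℝ) ^ (-s) ≤ Real.log (1 / (s - 1)) + C := by
  obtain ⟨C, hC⟩ := exists_abs_primeSum_sub_le K
  refine ⟨C, fun s hs1 hs2 T ↦ ?_⟩
  have h1 := abs_le.mp (hC s hs1 hs2)
  have h2 : ∑ v ∈ T, (absNorm v.asIdeal : ℝ) ^ (-s) ≤ primeSum K s :=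
    (summable_prime_rpow K hs1).sum_le_tsum T fun _ _ ↦ by positivity
  linarith [h1.2]

end Fermat.Agent.S14.H81
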