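import Fermat.Agent.S14.H81.Adapter32

/-!
# S14 / package D4 backup (helper81): the density argument

`exists_prime_char_ne_one_not_pow_of`: the skeleton statement DENS, from the class `L`-bound (D1)
and the Kummer splitting bound (D3) as explicit hypotheses, by character orthogonality on
`ZMod p`, the Euler-product inequality (EP1) and the degree-one prime sum (EP6).
-/

set_option autoImplicit false

open Filter Topology NumberField Ideal nonZeroDivisors IsDedekindDomain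

namespace Fermat.Agent.S14.H81

section Dens

variable {p : ℕ} [Fact p.Prime] {K : Type} [Field K] [NumberField K]

/-- The class-group character `c ↦ e(k · lam c / p)`. -/
noncomputable def chiK (lam : ClassGroup (𝓞 K) →* Multiplicative (ZMod p)) (k : ZMod p) :
    ClassGroup (𝓞 K) →* ℂˣ :=
  (((ZMod.stdAddChar (N := p)).mulShift k).toMonoidHom.comp lam).toHomUnits

theorem chiK_apply (lam : ClassGroup (𝓞 K) →* Multiplicative (ZMod p)) (k : ZMod p)
    (c : ClassGroup (𝓞 K)) :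
    ((chiK lam k c : ℂˣ) : ℂ) =
      ZMod.stdAddChar (N := p) (k * Multiplicative.toAdd (lam c)) := by
  simp [chiK, MonoidHom.coe_toHomUnits, AddChar.toMonoidHom_apply, AddChar.mulShift_apply]

theorem norm_chiK (lam : ClassGroup (𝓞 K) →* Multiplicative (ZMod p)) (k : ZMod p)
    (c : ClassGroup (𝓞 K)) : ‖((chiK lam k c : ℂˣ) : ℂ)‖ = 1 := by
  rw [chiK_apply]; exact AddChar.norm_apply _ _

theorem chiK_zero (lam : ClassGroup (𝓞 K) →* Multiplicative (ZMod p)) (c : ClassGroup (𝓞 K)) :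
    ((chiK lam 0 c : ℂˣ) : ℂ) = 1 := by
  rw [chiK_apply, zero_mul, AddChar.map_zero_eq_one]

theorem chiK_ne_one (lam : ClassGroup (𝓞 K) →* Multiplicative (ZMod p)) (hlam : lam ≠ 1)
    (k : ZMod p) (hk : k ≠ 0) : chiK lam k ≠ 1 := by
  intro h
  apply hlam
  ext c
  have h1 : ((chiK lam k c : ℂˣ) : ℂ) = 1 := by rw [h]; simp
  rw [chiK_apply] at h1
  have h2 : k * Multiplicative.toAdd (lam c) = 0 :=
    ZMod.injective_stdAddChar (by rw [h1, AddChar.map_zero_eq_one])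
  have h3 : Multiplicative.toAdd (lam c) = 0 := (mul_eq_zero.mp h2).resolve_left hk
  simpa using h3

/-- Orthogonality: `∑_k χ_k(c) = p` if `lam c = 1` and `0` otherwise. -/
theorem sum_chiK (lam : ClassGroup (𝓞 K) →* Multiplicative (ZMod p)) (c : ClassGroup (𝓞 K)) :
    ∑ k : ZMod p, ((chiK lam k c : ℂˣ) : ℂ) = if lam c = 1 then (p : ℂ) else 0 := by
  classical
  simp_rw [chiK_apply]
  rw [AddChar.sum_mulShift _ (ZMod.isPrimitive_stdAddChar p)]
  have hiff : Multiplicative.toAdd (lam c) = 0 ↔ lam c = 1 := by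
    constructor
    · intro h; simpa using h
    · intro h; simp [h]
  by_cases h : lam c = 1
  · rw [if_pos (hiff.mpr h), if_pos h, ZMod.card]
  · rw [if_neg (fun h' ↦ h (hiff.mp h')), if_neg h]; simp

/-- The multiplicative function on nonzero ideals attached to a class-group character. -/
noncomputable def chiHom (χ : ClassGroup (𝓞 K) →* ℂˣ) : (Ideal (𝓞 K))⁰ →* ℂ :=
  (Units.coeHom ℂ).comp (χ.comp ClassGroup.mk0)

theorem chiHom_apply (χ : ClassGroup (𝓞 K) →* ℂˣ) (I : (Ideal (𝓞 K))⁰) :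
    chiHom χ I = ((χ (ClassGroup.mk0 I) : ℂˣ) : ℂ) := rfl

/-- the weight `Re χ_k(v) N(v)^(-s)` -/
noncomputable def gk (lam : ClassGroup (𝓞 K) →* Multiplicative (ZMod p)) (s : ℝ) (k : ZMod p)
    (v : HeightOneSpectrum (𝓞 K)) : ℝ :=
  ((chiK lam k (ClassGroup.mk0 (toNZ K v)) : ℂˣ) : ℂ).re * (absNorm v.asIdeal : ℝ) ^ (-s)

theorem summable_gk (lam : ClassGroup (𝓞 K) →* Multiplicative (ZMod p)) {s : ℝ} (hs : 1 < s)
    (k : ZMod p) : Summable (gk lam s k) :=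
  summable_re_prime K (chiHom (chiK lam k)) (fun I ↦ (norm_chiK lam k _).le) hs

theorem sum_gk (lam : ClassGroup (𝓞 K) →* Multiplicative (ZMod p)) (s : ℝ)
    (v : HeightOneSpectrum (𝓞 K)) :
    ∑ k : ZMod p, gk lam s k v =
      (if lam (ClassGroup.mk0 (toNZ K v)) = 1 then (p : ℝ) else 0) *
        (absNorm v.asIdeal : ℝ) ^ (-s) := by
  unfold gk
  rw [← Finset.sum_mul, ← Complex.re_sum, sum_chiK]
  split_ifs <;> simp

/-- The prime sum over `{v | lam v = 1}` (weighted by `p`) is the sum of the prime sums of the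
real parts of the characters `χ_k`. -/
theorem tsum_ite_eq (lam : ClassGroup (𝓞 K) →* Multiplicative (ZMod p)) {s : ℝ} (hs : 1 < s) :
    Summable (fun v : HeightOneSpectrum (𝓞 K) ↦
      (if lam (ClassGroup.mk0 (toNZ K v)) = 1 then (p : ℝ) else 0) *
        (absNorm v.asIdeal : ℝ) ^ (-s)) ∧
    ∑' v : HeightOneSpectrum (𝓞 K),
      (if lam (ClassGroup.mk0 (toNZ K v)) = 1 then (p : ℝ) else 0) *
        (absNorm v.asIdeal : ℝ) ^ (-s) = ∑ k : ZMod p, ∑' v, gk lam s k v := by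
  have h1 : Summable fun v : HeightOneSpectrum (𝓞 K) ↦ ∑ k : ZMod p, gk lam s k v :=
    summable_sum fun k _ ↦ summable_gk lam hs k
  have h2 : ∑' v : HeightOneSpectrum (𝓞 K), ∑ k : ZMod p, gk lam s k v =
      ∑ k : ZMod p, ∑' v, gk lam s k v :=
    Summable.tsum_finsetSum fun k _ ↦ summable_gk lam hs k
  simp_rw [sum_gk] at h1 h2
  exact ⟨h1, h2⟩

/-- **(D-c2)** Primes in the kernel of a nontrivial `lam` have prime sum at most
`(1/p) (log (1/(s-1)) + C)`; finite-set form. -/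
theorem exists_bound_sum_ker (lam : ClassGroup (𝓞 K) →* Multiplicative (ZMod p))
    (hlam : lam ≠ 1)
    (hD1 : ∀ χ : ClassGroup (𝓞 K) →* ℂˣ, χ ≠ 1 → ∃ C : ℝ, ∀ s : ℝ, 1 < s → s ≤ 2 →
      ‖∑' I : (Ideal (𝓞 K))⁰, (χ (ClassGroup.mk0 I) : ℂ) *
        (((absNorm (I : Ideal (𝓞 K)) : ℝ) ^ (-s) : ℝ) : ℂ)‖ ≤ C) :
    ∃ C : ℝ, ∀ s : ℝ, 1 < s → s ≤ 2 → ∀ S : Finset (HeightOneSpectrum (𝓞 K)),
      (∀ v ∈ S, lam (ClassGroup.mk0 (toNZ K v)) = 1) →
        ∑ v ∈ S, (absNorm v.asIdeal : ℝ) ^ (-s) ≤ (1 / (p : ℝ)) * (Real.log (1 / (s - 1)) + C) := by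
  classical
  have hp0 : (0 : ℝ) < p := by exact_mod_cast (Fact.out : p.Prime).pos
  -- bounds for the individual characters
  have hk : ∀ k : ZMod p, ∃ C : ℝ, ∀ s : ℝ, 1 < s → s ≤ 2 →
      ∑' v, gk lam s k v ≤ (if k = 0 then Real.log (1 / (s - 1)) else 0) + C := by
    intro k
    by_cases hk0 : k = 0
    · subst hk0
      obtain ⟨C, hC⟩ := exists_abs_primeSum_sub_le K
      refine ⟨C, fun s hs1 hs2 ↦ ?_⟩
      rw [if_pos rfl]
      have h1 := abs_le.mp (hC s hs1 hs2)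
      have h2 : ∑' v, gk lam s 0 v = primeSum K s := by
        unfold primeSum gk
        exact tsum_congr fun v ↦ by rw [chiK_zero]; simp
      rw [h2]
      linarith [h1.2]
    · obtain ⟨B, hB⟩ := hD1 (chiK lam k) (chiK_ne_one lam hlam k hk0)
      refine ⟨Real.log B + 3 * primeC K, fun s hs1 hs2 ↦ ?_⟩
      rw [if_neg hk0, zero_add]
      exact tsum_re_prime_le_of_norm_le K (chiHom (chiK lam k))
        (fun I ↦ (norm_chiK lam k _).le) hs1 (hB s hs1 hs2)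
  choose Ck hCk using hk
  refine ⟨∑ k : ZMod p, Ck k, fun s hs1 hs2 S hS ↦ ?_⟩
  obtain ⟨hsum, htsum⟩ := tsum_ite_eq lam hs1
  have h1 : ∑ v ∈ S, (p : ℝ) * (absNorm v.asIdeal : ℝ) ^ (-s) ≤
      ∑' v : HeightOneSpectrum (𝓞 K),
        (if lam (ClassGroup.mk0 (toNZ K v)) = 1 then (p : ℝ) else 0) *
          (absNorm v.asIdeal : ℝ) ^ (-s) := by
    have h := hsum.sum_le_tsum S (fun v _ ↦ by
      split_ifs <;> positivity)
    refine le_trans (le_of_eq ?_) h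
    exact Finset.sum_congr rfl fun v hv ↦ by rw [if_pos (hS v hv)]
  have h2 : ∑ k : ZMod p, ∑' v, gk lam s k v ≤
      ∑ k : ZMod p, ((if k = 0 then Real.log (1 / (s - 1)) else 0) + Ck k) :=
    Finset.sum_le_sum fun k _ ↦ hCk k s hs1 hs2
  rw [Finset.sum_add_distrib, Finset.sum_ite_eq' Finset.univ (0 : ZMod p),
    if_pos (Finset.mem_univ _)] at h2
  rw [← Finset.mul_sum] at h1
  have h3 : (p : ℝ) * ∑ v ∈ S, (absNorm v.asIdeal : ℝ) ^ (-s) ≤
      Real.log (1 / (s - 1)) + ∑ k : ZMod p, Ck k := by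
    rw [htsum] at h1
    exact h1.trans h2
  rw [one_div, inv_mul_eq_div, le_div_iff₀ hp0]
  linarith

/-- **DENS**, from the class `L`-bound (D1) and the Kummer splitting bound (D3) as hypotheses. -/
theorem exists_prime_char_ne_one_not_pow_of (hp : 3 ≤ p) (η : 𝓞 K) (hη0 : η ≠ 0)
    (lam : ClassGroup (𝓞 K) →* Multiplicative (ZMod p)) (hlam : lam ≠ 1)
    (hD1 : ∀ χ : ClassGroup (𝓞 K) →* ℂˣ, χ ≠ 1 → ∃ C : ℝ, ∀ s : ℝ, 1 < s → s ≤ 2 →
      ‖∑' I : (Ideal (𝓞 K))⁰, (χ (ClassGroup.mk0 I) : ℂ) *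
        (((absNorm (I : Ideal (𝓞 K)) : ℝ) ^ (-s) : ℝ) : ℂ)‖ ≤ C)
    (hD3 : ∃ C : ℝ, ∀ s : ℝ, 1 < s → s ≤ 2 → ∀ S : Finset (HeightOneSpectrum (𝓞 K)),
      (∀ v ∈ S, (p : 𝓞 K) ∉ v.asIdeal ∧ η ∉ v.asIdeal ∧ ∃ y : 𝓞 K, η - y ^ p ∈ v.asIdeal) →
        ∑ v ∈ S, H32.nrm K s (H32.prm v) ≤ (1 / (p : ℝ)) * Real.log (1 / (s - 1)) + C) :
    ∃ Q : (Ideal (𝓞 K))⁰, (Q : Ideal (𝓞 K)).IsPrime ∧
      (Ideal.absNorm (Q : Ideal (𝓞 K))).Prime ∧ (p : 𝓞 K) ∉ (Q : Ideal (𝓞 K)) ∧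
      lam (ClassGroup.mk0 Q) ≠ 1 ∧ ∀ y : 𝓞 K, η - y ^ p ∉ (Q : Ideal (𝓞 K)) := by
  classical
  by_contra hcon
  have hcon' : ∀ v : HeightOneSpectrum (𝓞 K), (Ideal.absNorm v.asIdeal).Prime →
      (p : 𝓞 K) ∉ v.asIdeal → lam (ClassGroup.mk0 (toNZ K v)) ≠ 1 →
      ∃ y : 𝓞 K, η - y ^ p ∈ v.asIdeal := by
    intro v hv1 hv2 hv3
    by_contra hno
    exact hcon ⟨toNZ K v, v.isPrime, hv1, hv2, hv3, fun y hy ↦ hno ⟨y, hy⟩⟩
  have hp0 : (0 : ℝ) < p := by exact_mod_cast (Fact.out : p.Prime).pos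
  have hp3 : (3 : ℝ) ≤ p := by exact_mod_cast hp
  have hpinv : 1 / (p : ℝ) ≤ 1 / 3 := one_div_le_one_div_of_le (by norm_num) hp3
  have hpinv0 : 0 ≤ 1 / (p : ℝ) := by positivity
  obtain ⟨C₁, hC₁⟩ := exists_sum_degOne_ge K
  obtain ⟨C₃, hC₃⟩ := hD3
  obtain ⟨Cl, hCl⟩ := exists_bound_sum_ker lam hlam hD1
  -- the finite exceptional set
  have hpK : ((p : ℕ) : 𝓞 K) ≠ 0 := Nat.cast_ne_zero.mpr (Fact.out : p.Prime).ne_zero
  have hfin : {v : HeightOneSpectrum (𝓞 K) | (p : 𝓞 K) ∈ v.asIdeal ∨ η ∈ v.asIdeal}.Finite := by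
    have h1 := Ideal.finite_factors (R := 𝓞 K) (I := Ideal.span {((p : ℕ) : 𝓞 K)})
      (by simpa using hpK)
    have h2 := Ideal.finite_factors (R := 𝓞 K) (I := Ideal.span {η}) (by simpa using hη0)
    refine (h1.union h2).subset ?_
    intro v hv
    rcases hv with hv | hv
    · exact Or.inl (Ideal.dvd_span_singleton.mpr hv)
    · exact Or.inr (Ideal.dvd_span_singleton.mpr hv)
  set E : Finset (HeightOneSpectrum (𝓞 K)) := hfin.toFinset with hE
  have hmemE : ∀ v, v ∈ E ↔ ((p : 𝓞 K) ∈ v.asIdeal ∨ η ∈ v.asIdeal) := fun v ↦ by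
    rw [hE, Set.Finite.mem_toFinset]; rfl
  set M' : ℝ := C₁ + E.card + |Cl| + C₃ with hM'
  set t : ℝ := 3 * |M'| + 3 with ht
  have ht0 : 0 < t := by rw [ht]; positivity
  set s : ℝ := 1 + Real.exp (-t) with hs
  have hs1 : 1 < s := by rw [hs]; linarith [Real.exp_pos (-t)]
  have hs2 : s ≤ 2 := by
    rw [hs]
    have : Real.exp (-t) ≤ 1 := Real.exp_le_one_iff.mpr (by linarith)
    linarith
  have hlog : Real.log (1 / (s - 1)) = t := by
    rw [hs, add_sub_cancel_left, one_div, ← Real.exp_neg, neg_neg, Real.log_exp]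
  obtain ⟨S, hS1, hS2⟩ := hC₁ s hs1 hs2
  rw [hlog] at hS2
  -- pointwise splitting
  let Pη : HeightOneSpectrum (𝓞 K) → Prop := fun v ↦
    (p : 𝓞 K) ∉ v.asIdeal ∧ η ∉ v.asIdeal ∧ ∃ y : 𝓞 K, η - y ^ p ∈ v.asIdeal
  have hterm : ∀ v : HeightOneSpectrum (𝓞 K), 0 ≤ (absNorm v.asIdeal : ℝ) ^ (-s) :=
    fun v ↦ by positivity
  have hsplit : ∀ v ∈ S, (absNorm v.asIdeal : ℝ) ^ (-s) ≤
      (if v ∈ E then (absNorm v.asIdeal : ℝ) ^ (-s) else 0) +
      (if lam (ClassGroup.mk0 (toNZ K v)) = 1 then (absNorm v.asIdeal : ℝ) ^ (-s) else 0) +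
      (if Pη v then (absNorm v.asIdeal : ℝ) ^ (-s) else 0) := by
    intro v hv
    have h0 := hterm v
    by_cases hvE : v ∈ E
    · rw [if_pos hvE]
      have : 0 ≤ (if lam (ClassGroup.mk0 (toNZ K v)) = 1 then
          (absNorm v.asIdeal : ℝ) ^ (-s) else 0) := by split_ifs <;> simp [h0]
      have : 0 ≤ (if Pη v then (absNorm v.asIdeal : ℝ) ^ (-s) else 0) := by
        split_ifs <;> simp [h0]
      linarith
    · rw [if_neg hvE]
      have hnot := (not_congr (hmemE v)).mp hvE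
      rw [not_or] at hnot
      by_cases hl : lam (ClassGroup.mk0 (toNZ K v)) = 1
      · rw [if_pos hl]
        have : 0 ≤ (if Pη v then (absNorm v.asIdeal : ℝ) ^ (-s) else 0) := by
          split_ifs <;> simp [h0]
        linarith
      · rw [if_neg hl]
        have hP : Pη v := ⟨hnot.1, hnot.2, hcon' v (hS1 v hv) hnot.1 hl⟩
        rw [if_pos hP]
        linarith
  have hsum := Finset.sum_le_sum hsplit
  rw [Finset.sum_add_distrib, Finset.sum_add_distrib, ← Finset.sum_filter, ← Finset.sum_filter,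
    ← Finset.sum_filter] at hsum
  -- the three parts
  have hA : ∑ v ∈ S with v ∈ E, (absNorm v.asIdeal : ℝ) ^ (-s) ≤ E.card := by
    calc ∑ v ∈ S with v ∈ E, (absNorm v.asIdeal : ℝ) ^ (-s)
        ≤ ∑ v ∈ S with v ∈ E, (1 : ℝ) := by
          refine Finset.sum_le_sum fun v _ ↦ ?_
          have h2 : (1 : ℝ) ≤ absNorm v.asIdeal := by
            have := two_le_absNorm K v
            exact_mod_cast (by omega : 1 ≤ absNorm v.asIdeal)
          exact Real.rpow_le_one_of_one_le_of_nonpos h2 (by linarith)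
      _ = ((S.filter fun v ↦ v ∈ E).card : ℝ) := by simp
      _ ≤ E.card := by
          exact_mod_cast Finset.card_le_card fun v hv ↦ (Finset.mem_filter.mp hv).2
  have hB := hCl s hs1 hs2 (S.filter fun v ↦ lam (ClassGroup.mk0 (toNZ K v)) = 1)
    (fun v hv ↦ (Finset.mem_filter.mp hv).2)
  rw [hlog] at hB
  have hC := hC₃ s hs1 hs2 (S.filter Pη) (fun v hv ↦ (Finset.mem_filter.mp hv).2)
  rw [hlog] at hC
  have hC' : ∑ v ∈ S with Pη v, (absNorm v.asIdeal : ℝ) ^ (-s) ≤ 1 / (p : ℝ) * t + C₃ := hC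
  have hS2' : t - C₁ ≤ ∑ v ∈ S, (absNorm v.asIdeal : ℝ) ^ (-s) := hS2
  -- arithmetic
  have e1 : 1 / (p : ℝ) * (t + Cl) ≤ t / 3 + |Cl| := by
    have h1 : 1 / (p : ℝ) * t ≤ 1 / 3 * t := mul_le_mul_of_nonneg_right hpinv ht0.le
    have h2 : 1 / (p : ℝ) * Cl ≤ |Cl| := by
      calc 1 / (p : ℝ) * Cl ≤ 1 / (p : ℝ) * |Cl| :=
            mul_le_mul_of_nonneg_left (le_abs_self _) hpinv0
        _ ≤ 1 * |Cl| := mul_le_mul_of_nonneg_right (by linarith) (abs_nonneg _)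
        _ = |Cl| := one_mul _
    rw [mul_add]; linarith
  have e2 : 1 / (p : ℝ) * t ≤ t / 3 := by
    have h1 : 1 / (p : ℝ) * t ≤ 1 / 3 * t := mul_le_mul_of_nonneg_right hpinv ht0.le
    linarith
  have hfinal : t / 3 ≤ M' := by rw [hM']; linarith
  have habs : M' ≤ |M'| := le_abs_self _
  rw [ht] at hfinal
  linarith

end Dens

end Fermat.Agent.S14.H81
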