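import Mathlib

/-!
# S14 / package D1 (helper81): finite Euler products over ideals of a Dedekind domain

For a finite set `T` of primes of a Dedekind domain and `M : ℕ`, the divisors of
`(∏ v ∈ T, v) ^ M` are exactly the ideals `∏ v ∈ T, v ^ k v` with `k v ≤ M`, and the sum of a
multiplicative function over them is the finite Euler product `∏ v ∈ T, ∑ j ≤ M, a v ^ j`.
-/

set_option autoImplicit false

open IsDedekindDomain

namespace Fermat.Agent.S14.H81

variable {R : Type*} [CommRing R] [IsDedekindDomain R]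

/-- The product of the primes in `T`. -/
noncomputable def primeProd (T : Finset (HeightOneSpectrum R)) : Ideal R := ∏ v ∈ T, v.asIdeal

theorem primeProd_ne_zero (T : Finset (HeightOneSpectrum R)) : primeProd T ≠ 0 :=
  Finset.prod_ne_zero_iff.mpr fun v _ ↦ v.ne_bot

theorem primeProd_dvd_of_subset {T T' : Finset (HeightOneSpectrum R)} (h : T ⊆ T') :
    primeProd T ∣ primeProd T' :=
  Finset.prod_dvd_prod_of_subset _ _ _ h

theorem dvd_primeProd {T : Finset (HeightOneSpectrum R)} {v : HeightOneSpectrum R} (hv : v ∈ T) :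
    v.asIdeal ∣ primeProd T :=
  Finset.dvd_prod_of_mem _ hv

theorem finite_dvd (D : Ideal R) (hD : D ≠ 0) : {I : Ideal R | I ∣ D}.Finite := by
  have h : Fintype {x : Ideal R // x ∣ D} := UniqueFactorizationMonoid.fintypeSubtypeDvd D hD
  exact Set.finite_coe_iff.mp (Finite.of_fintype {x : Ideal R // x ∣ D})

/-- The divisors of `(primeProd T) ^ M`, as a finset: the `T`-smooth ideals with all
multiplicities `≤ M`. -/
noncomputable def smoothFinset (T : Finset (HeightOneSpectrum R)) (M : ℕ) : Finset (Ideal R) :=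
  (finite_dvd (primeProd T ^ M) (pow_ne_zero _ (primeProd_ne_zero T))).toFinset

theorem mem_smoothFinset {T : Finset (HeightOneSpectrum R)} {M : ℕ} {I : Ideal R} :
    I ∈ smoothFinset T M ↔ I ∣ primeProd T ^ M := by
  simp [smoothFinset]

theorem ne_zero_of_mem_smoothFinset {T : Finset (HeightOneSpectrum R)} {M : ℕ} {I : Ideal R}
    (h : I ∈ smoothFinset T M) : I ≠ 0 :=
  ne_zero_of_dvd_ne_zero (pow_ne_zero _ (primeProd_ne_zero T)) (mem_smoothFinset.mp h)

theorem smoothFinset_mono {T T' : Finset (HeightOneSpectrum R)} {M M' : ℕ} (hT : T ⊆ T')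
    (hM : M ≤ M') : smoothFinset T M ⊆ smoothFinset T' M' := by
  intro I hI
  rw [mem_smoothFinset] at hI ⊢
  exact hI.trans ((pow_dvd_pow _ hM).trans (pow_dvd_pow_of_dvd (primeProd_dvd_of_subset hT) _))

/-- Every nonzero ideal is eventually in `smoothFinset T M`. -/
theorem exists_mem_smoothFinset (I : Ideal R) (hI : I ≠ 0) :
    ∃ (T : Finset (HeightOneSpectrum R)) (M : ℕ), I ∈ smoothFinset T M := by
  classical
  induction I using UniqueFactorizationMonoid.induction_on_prime with
  | h₁ => exact absurd rfl hI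
  | h₂ x hx =>
    refine ⟨∅, 0, ?_⟩
    rw [mem_smoothFinset]
    exact hx.dvd
  | h₃ a p ha hp ih =>
    obtain ⟨T, M, hT⟩ := ih ha
    rw [mem_smoothFinset] at hT
    have hp0 : p ≠ ⊥ := hp.ne_zero
    have hpP : p.IsPrime := Ideal.isPrime_of_prime hp
    let v : HeightOneSpectrum R := ⟨p, hpP, hp0⟩
    refine ⟨insert v T, M + 1, ?_⟩
    rw [mem_smoothFinset, pow_succ']
    exact mul_dvd_mul (dvd_primeProd (v := v) (Finset.mem_insert_self _ _))
      (hT.trans (pow_dvd_pow_of_dvd (primeProd_dvd_of_subset (Finset.subset_insert _ _)) _))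

theorem not_dvd_primeProd_pow {T : Finset (HeightOneSpectrum R)} {v : HeightOneSpectrum R}
    (hv : v ∉ T) (M : ℕ) : ¬ v.asIdeal ∣ primeProd T ^ M := by
  intro h
  have h1 := v.prime.dvd_of_dvd_pow h
  obtain ⟨w, hw, hvw⟩ := (Prime.dvd_finsetProd_iff v.prime _).mp h1
  have hle : w.asIdeal ≤ v.asIdeal := Ideal.dvd_iff_le.mp hvw
  have heq : w.asIdeal = v.asIdeal := w.isMaximal.eq_of_le v.isPrime.ne_top hle
  exact hv (HeightOneSpectrum.ext heq ▸ hw)

theorem pow_of_mul_ne_zero {A : Type*} [CommRing A] (a : Ideal R → A) (h1 : a 1 = 1)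
    (hmul : ∀ I J : Ideal R, I ≠ 0 → J ≠ 0 → a (I * J) = a I * a J)
    (I : Ideal R) (hI : I ≠ 0) (j : ℕ) : a (I ^ j) = a I ^ j := by
  induction j with
  | zero => simpa using h1
  | succ j ih => rw [pow_succ, hmul _ _ (pow_ne_zero _ hI) hI, ih, pow_succ]

/-- **Finite Euler product.** -/
theorem sum_smoothFinset {A : Type*} [CommRing A] (a : Ideal R → A) (h1 : a 1 = 1)
    (hmul : ∀ I J : Ideal R, I ≠ 0 → J ≠ 0 → a (I * J) = a I * a J)
    (T : Finset (HeightOneSpectrum R)) (M : ℕ) :
    ∑ I ∈ smoothFinset T M, a I = ∏ v ∈ T, ∑ j ∈ Finset.range (M + 1), a v.asIdeal ^ j := by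
  classical
  induction T using Finset.induction_on with
  | empty =>
    have : smoothFinset (∅ : Finset (HeightOneSpectrum R)) M = {1} := by
      ext I
      rw [mem_smoothFinset, Finset.mem_singleton]
      have : primeProd (∅ : Finset (HeightOneSpectrum R)) ^ M = 1 := by simp [primeProd]
      rw [this]
      constructor
      · intro h
        have h2 : I = ⊤ := Ideal.isUnit_iff.mp (isUnit_of_dvd_one h)
        rw [h2, Ideal.one_eq_top]
      · rintro rfl
        exact dvd_rfl
    rw [this, Finset.sum_singleton, Finset.prod_empty, h1]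
  | insert v T hv ih =>
    rw [Finset.prod_insert hv, ← ih, Finset.sum_mul_sum, ← Finset.sum_product']
    have himg : smoothFinset (insert v T) M =
        (Finset.range (M + 1) ×ˢ smoothFinset T M).image
          (fun p : ℕ × Ideal R ↦ v.asIdeal ^ p.1 * p.2) := by
      ext I
      rw [mem_smoothFinset, Finset.mem_image]
      have hD : primeProd (insert v T) ^ M = v.asIdeal ^ M * primeProd T ^ M := by
        rw [primeProd, Finset.prod_insert hv, mul_pow]; rfl
      rw [hD]
      constructor
      · intro h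
        obtain ⟨d₁, d₂, h₁, h₂, rfl⟩ := dvd_mul.mp h
        obtain ⟨i, hi, hassoc⟩ := (dvd_prime_pow v.prime M).mp h₁
        rw [associated_iff_eq] at hassoc
        refine ⟨(i, d₂), ?_, by rw [hassoc]⟩
        rw [Finset.mem_product, Finset.mem_range, mem_smoothFinset]
        exact ⟨Nat.lt_succ_of_le hi, h₂⟩
      · rintro ⟨⟨i, J⟩, hp, rfl⟩
        rw [Finset.mem_product, Finset.mem_range, mem_smoothFinset] at hp
        exact mul_dvd_mul (pow_dvd_pow _ (Nat.lt_succ_iff.mp hp.1)) hp.2
    have hinj : Set.InjOn (fun p : ℕ × Ideal R ↦ v.asIdeal ^ p.1 * p.2)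
        (Finset.range (M + 1) ×ˢ smoothFinset T M : Finset (ℕ × Ideal R)) := by
      have key : ∀ (i j : ℕ) (J J' : Ideal R), i ≤ j → J ∣ primeProd T ^ M →
          v.asIdeal ^ i * J = v.asIdeal ^ j * J' → i = j ∧ J = J' := by
        intro i j J J' hij hJ h
        obtain ⟨k, rfl⟩ := Nat.exists_eq_add_of_le hij
        rw [pow_add, mul_assoc] at h
        have h' : J = v.asIdeal ^ k * J' :=
          mul_left_cancel₀ (pow_ne_zero i v.ne_bot) h
        rcases Nat.eq_zero_or_pos k with rfl | hk
        · simpa using h'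
        · exfalso
          apply not_dvd_primeProd_pow hv M
          refine Dvd.dvd.trans ?_ hJ
          rw [h']
          exact Dvd.dvd.mul_right (dvd_pow_self _ hk.ne') _
      rintro ⟨i, J⟩ hp ⟨j, J'⟩ hq h
      simp only [Finset.coe_product, Set.mem_prod, Finset.mem_coe, Finset.mem_range,
        mem_smoothFinset] at hp hq
      simp only at h
      rcases Nat.le_total i j with hij | hij
      · obtain ⟨rfl, rfl⟩ := key i j J J' hij hp.2 h
        rfl
      · obtain ⟨rfl, rfl⟩ := key j i J' J hij hq.2 h.symm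
        rfl
    rw [himg, Finset.sum_image hinj]
    refine Finset.sum_congr rfl fun p hp ↦ ?_
    rw [Finset.mem_product] at hp
    rw [hmul _ _ (pow_ne_zero _ v.ne_bot) (ne_zero_of_mem_smoothFinset hp.2),
      pow_of_mul_ne_zero a h1 hmul _ v.ne_bot]

end Fermat.Agent.S14.H81
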