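import Fermat.Agent.S14.H81.IdealSum
import Fermat.Agent.S14.H81.SmoothSum

/-!
# S14 / package D1 (helper81): Euler-product inequalities for Dirichlet series over ideals

For a number field `K`, a multiplicative `f` on nonzero ideals with `‖f I‖ ≤ 1` and real `s > 1`:
`exp (∑_P Re f(P) N(P)^(-s) - 3 C) ≤ ‖∑_I f(I) N(I)^(-s)‖`, and for `f = 1` also the reverse
inequality `∑_I N(I)^(-s) ≤ exp (∑_P N(P)^(-s) + 2 C)`, where `C = ∑_P N(P)^(-2)`.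
Only finite Euler products over smooth ideals and monotone limits are used.
-/

set_option autoImplicit false

open Filter Topology NumberField Ideal nonZeroDivisors IsDedekindDomain

namespace Fermat.Agent.S14.H81

/-! ### Per-factor inequalities -/

theorem norm_one_sub_le_exp (z : ℂ) : ‖1 - z‖ ≤ Real.exp (-z.re + ‖z‖ ^ 2) := by
  have h1 : ‖1 - z‖ ^ 2 ≤ (Real.exp (-z.re + ‖z‖ ^ 2)) ^ 2 := by
    have e : (Real.exp (-z.re + ‖z‖ ^ 2)) ^ 2 = Real.exp (2 * (-z.re + ‖z‖ ^ 2)) := by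
      rw [← Real.exp_nat_mul]; norm_num
    have h2 : ‖1 - z‖ ^ 2 = 1 - 2 * z.re + ‖z‖ ^ 2 := by
      rw [Complex.sq_norm, Complex.sq_norm, Complex.normSq_apply, Complex.normSq_apply]
      simp only [Complex.sub_re, Complex.one_re, Complex.sub_im, Complex.one_im]
      ring
    rw [e, h2]
    have := Real.add_one_le_exp (2 * (-z.re + ‖z‖ ^ 2))
    nlinarith [sq_nonneg ‖z‖]
  exact (pow_le_pow_iff_left₀ (norm_nonneg _) (Real.exp_pos _).le two_ne_zero).mp h1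

theorem exp_le_norm_geom_sum {z : ℂ} (hz : ‖z‖ ≤ 1 / 2) {M : ℕ} (hM : 1 ≤ M) :
    Real.exp (z.re - 3 * ‖z‖ ^ 2) ≤ ‖∑ j ∈ Finset.range (M + 1), z ^ j‖ := by
  set G := ∑ j ∈ Finset.range (M + 1), z ^ j with hG
  have h1 : G * (1 - z) = 1 - z ^ (M + 1) := geom_sum_mul_neg z (M + 1)
  have h2 : ‖1 - z‖ ≤ Real.exp (-z.re + ‖z‖ ^ 2) := norm_one_sub_le_exp z
  have hz0 : 0 ≤ ‖z‖ := norm_nonneg z
  have h3 : Real.exp (-(2 * ‖z‖ ^ 2)) ≤ ‖1 - z ^ (M + 1)‖ := by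
    have a1 : 1 - ‖z‖ ^ (M + 1) ≤ ‖1 - z ^ (M + 1)‖ := by
      have := norm_sub_norm_le (1 : ℂ) (z ^ (M + 1))
      rw [norm_one, norm_pow] at this
      exact this
    have a2 : ‖z‖ ^ (M + 1) ≤ ‖z‖ ^ 2 :=
      pow_le_pow_of_le_one hz0 (by linarith) (by omega)
    have a3 : Real.exp (-(2 * ‖z‖ ^ 2)) ≤ 1 - ‖z‖ ^ 2 := by
      set x := ‖z‖ ^ 2 with hx
      have hx0 : 0 ≤ x := by positivity
      have hx1 : x ≤ 1 / 4 := by rw [hx]; nlinarith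
      have e1 := Real.add_one_le_exp (2 * x)
      rw [Real.exp_neg, inv_le_comm₀ (Real.exp_pos _) (by linarith)]
      calc (1 - x)⁻¹ ≤ 1 + 2 * x := by
            rw [inv_le_iff_one_le_mul₀ (by linarith)]
            nlinarith
        _ ≤ Real.exp (2 * x) := by linarith
    linarith
  have h4 : ‖G‖ * ‖1 - z‖ = ‖1 - z ^ (M + 1)‖ := by rw [← norm_mul, h1]
  have h5 : Real.exp (-(2 * ‖z‖ ^ 2)) ≤ ‖G‖ * Real.exp (-z.re + ‖z‖ ^ 2) := by
    calc _ ≤ ‖1 - z ^ (M + 1)‖ := h3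
      _ = ‖G‖ * ‖1 - z‖ := h4.symm
      _ ≤ ‖G‖ * Real.exp (-z.re + ‖z‖ ^ 2) := by gcongr
  have h6 : Real.exp (z.re - 3 * ‖z‖ ^ 2) =
      Real.exp (-(2 * ‖z‖ ^ 2)) * (Real.exp (-z.re + ‖z‖ ^ 2))⁻¹ := by
    rw [← Real.exp_neg, ← Real.exp_add]; congr 1; ring
  rw [h6, mul_inv_le_iff₀ (Real.exp_pos _)]
  exact h5

theorem geom_sum_le_exp {x : ℝ} (hx0 : 0 ≤ x) (hx : x ≤ 1 / 2) (M : ℕ) :
    ∑ j ∈ Finset.range (M + 1), x ^ j ≤ Real.exp (x + 2 * x ^ 2) := by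
  have h1 : (∑ j ∈ Finset.range (M + 1), x ^ j) * (1 - x) = 1 - x ^ (M + 1) :=
    geom_sum_mul_neg x (M + 1)
  have h2 : (∑ j ∈ Finset.range (M + 1), x ^ j) * (1 - x) ≤ 1 := by
    rw [h1]; linarith [pow_nonneg hx0 (M + 1)]
  have h3 : 1 ≤ (1 + x + 2 * x ^ 2) * (1 - x) := by nlinarith
  have h4 : ∑ j ∈ Finset.range (M + 1), x ^ j ≤ 1 + x + 2 * x ^ 2 := by
    by_contra hc
    rw [not_le] at hc
    have : (1 + x + 2 * x ^ 2) * (1 - x) < (∑ j ∈ Finset.range (M + 1), x ^ j) * (1 - x) :=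
      mul_lt_mul_of_pos_right hc (by linarith)
    linarith
  linarith [Real.add_one_le_exp (x + 2 * x ^ 2)]

/-! ### Primes of a number field -/

variable (K : Type*) [Field K] [NumberField K]

/-- A prime of `𝓞 K` as a nonzero ideal. -/
noncomputable def toNZ (v : HeightOneSpectrum (𝓞 K)) : (Ideal (𝓞 K))⁰ :=
  ⟨v.asIdeal, mem_nonZeroDivisors_iff_ne_zero.mpr v.ne_bot⟩

@[simp] theorem coe_toNZ (v : HeightOneSpectrum (𝓞 K)) : (toNZ K v : Ideal (𝓞 K)) = v.asIdeal := rfl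

theorem toNZ_injective : Function.Injective (toNZ K) := fun _ _ h ↦
  HeightOneSpectrum.ext (congrArg (fun I : (Ideal (𝓞 K))⁰ ↦ (I : Ideal (𝓞 K))) h)

theorem two_le_absNorm (v : HeightOneSpectrum (𝓞 K)) : 2 ≤ absNorm v.asIdeal := by
  have h0 : absNorm v.asIdeal ≠ 0 := fun h ↦ v.ne_bot (absNorm_eq_zero_iff.mp h)
  have h1 : absNorm v.asIdeal ≠ 1 := fun h ↦ v.isPrime.ne_top (absNorm_eq_one_iff.mp h)
  omega

theorem summable_prime_rpow {s : ℝ} (hs : 1 < s) :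
    Summable fun v : HeightOneSpectrum (𝓞 K) ↦ (absNorm v.asIdeal : ℝ) ^ (-s) := by
  have h := Summable.comp_injective (i := toNZ K) (summable_absNorm_rpow K hs) (toNZ_injective K)
  exact h.congr fun v ↦ rfl

/-- The constant `∑_P N(P)^(-2)`. -/
noncomputable def primeC : ℝ := ∑' v : HeightOneSpectrum (𝓞 K), (absNorm v.asIdeal : ℝ) ^ (-2 : ℝ)

theorem primeC_nonneg : 0 ≤ primeC K := tsum_nonneg fun _ ↦ by positivity

theorem prime_rpow_le_half (v : HeightOneSpectrum (𝓞 K)) {s : ℝ} (hs : 1 ≤ s) :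
    (absNorm v.asIdeal : ℝ) ^ (-s) ≤ 1 / 2 := by
  have h2 : (2 : ℝ) ≤ absNorm v.asIdeal := by exact_mod_cast two_le_absNorm K v
  calc (absNorm v.asIdeal : ℝ) ^ (-s) ≤ (absNorm v.asIdeal : ℝ) ^ (-1 : ℝ) :=
        Real.rpow_le_rpow_of_exponent_le (by linarith) (by linarith)
    _ = ((absNorm v.asIdeal : ℝ))⁻¹ := Real.rpow_neg_one _
    _ ≤ 1 / 2 := by
        rw [one_div]
        exact inv_anti₀ (by norm_num) h2

theorem prime_rpow_sq_le (v : HeightOneSpectrum (𝓞 K)) {s : ℝ} (hs : 1 ≤ s) :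
    ((absNorm v.asIdeal : ℝ) ^ (-s)) ^ 2 ≤ (absNorm v.asIdeal : ℝ) ^ (-2 : ℝ) := by
  have h2 : (2 : ℝ) ≤ absNorm v.asIdeal := by exact_mod_cast two_le_absNorm K v
  rw [← Real.rpow_natCast, ← Real.rpow_mul (by linarith)]
  exact Real.rpow_le_rpow_of_exponent_le (by linarith) (by push_cast; linarith)

theorem sum_prime_sq_le (T : Finset (HeightOneSpectrum (𝓞 K))) {s : ℝ} (hs : 1 ≤ s) :
    ∑ v ∈ T, ((absNorm v.asIdeal : ℝ) ^ (-s)) ^ 2 ≤ primeC K := by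
  calc ∑ v ∈ T, ((absNorm v.asIdeal : ℝ) ^ (-s)) ^ 2
      ≤ ∑ v ∈ T, (absNorm v.asIdeal : ℝ) ^ (-2 : ℝ) :=
        Finset.sum_le_sum fun v _ ↦ prime_rpow_sq_le K v hs
    _ ≤ primeC K :=
        (summable_prime_rpow K (by norm_num : (1 : ℝ) < 2)).sum_le_tsum T
          (fun _ _ ↦ by positivity)

/-! ### The Dirichlet series of a multiplicative function, extended by zero -/

open Classical in
/-- `I ↦ f I * N(I)^(-s)`, extended by zero to the zero ideal. -/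
noncomputable def dterm (f : (Ideal (𝓞 K))⁰ → ℂ) (s : ℝ) (I : Ideal (𝓞 K)) : ℂ :=
  if h : I ∈ (Ideal (𝓞 K))⁰ then f ⟨I, h⟩ * (((absNorm I : ℝ) ^ (-s) : ℝ) : ℂ) else 0

theorem dterm_of_mem (f : (Ideal (𝓞 K))⁰ → ℂ) (s : ℝ) {I : Ideal (𝓞 K)}
    (h : I ∈ (Ideal (𝓞 K))⁰) :
    dterm K f s I = f ⟨I, h⟩ * (((absNorm I : ℝ) ^ (-s) : ℝ) : ℂ) := by
  unfold dterm; rw [dif_pos h]

theorem dterm_coe (f : (Ideal (𝓞 K))⁰ → ℂ) (s : ℝ) (I : (Ideal (𝓞 K))⁰) :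
    dterm K f s I = f I * (((absNorm (I : Ideal (𝓞 K)) : ℝ) ^ (-s) : ℝ) : ℂ) :=
  dterm_of_mem K f s I.2

theorem dterm_of_not_mem (f : (Ideal (𝓞 K))⁰ → ℂ) (s : ℝ) {I : Ideal (𝓞 K)}
    (h : I ∉ (Ideal (𝓞 K))⁰) : dterm K f s I = 0 := by
  unfold dterm; rw [dif_neg h]

theorem dterm_one (f : (Ideal (𝓞 K))⁰ →* ℂ) (s : ℝ) : dterm K f s 1 = 1 := by
  rw [dterm_of_mem K f s (one_mem _)]
  have : (⟨1, one_mem _⟩ : (Ideal (𝓞 K))⁰) = 1 := rfl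
  rw [this, map_one, map_one]
  simp

theorem dterm_mul (f : (Ideal (𝓞 K))⁰ →* ℂ) (s : ℝ) (I J : Ideal (𝓞 K)) (hI : I ≠ 0)
    (hJ : J ≠ 0) : dterm K f s (I * J) = dterm K f s I * dterm K f s J := by
  have hI' : I ∈ (Ideal (𝓞 K))⁰ := mem_nonZeroDivisors_iff_ne_zero.mpr hI
  have hJ' : J ∈ (Ideal (𝓞 K))⁰ := mem_nonZeroDivisors_iff_ne_zero.mpr hJ
  rw [dterm_of_mem K f s (mul_mem hI' hJ'), dterm_of_mem K f s hI', dterm_of_mem K f s hJ']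
  have : (⟨I * J, mul_mem hI' hJ'⟩ : (Ideal (𝓞 K))⁰) = ⟨I, hI'⟩ * ⟨J, hJ'⟩ := rfl
  rw [this, map_mul, map_mul, Nat.cast_mul,
    Real.mul_rpow (Nat.cast_nonneg _) (Nat.cast_nonneg _), Complex.ofReal_mul]
  ring

theorem norm_dterm_le (f : (Ideal (𝓞 K))⁰ → ℂ) (hf : ∀ I, ‖f I‖ ≤ 1) (s : ℝ)
    (I : (Ideal (𝓞 K))⁰) :
    ‖dterm K f s I‖ ≤ (absNorm (I : Ideal (𝓞 K)) : ℝ) ^ (-s) := by
  rw [dterm_coe, norm_mul, Complex.norm_real, Real.norm_of_nonneg (by positivity)]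
  exact mul_le_of_le_one_left (by positivity) (hf I)

theorem summable_dterm_coe (f : (Ideal (𝓞 K))⁰ → ℂ) (hf : ∀ I, ‖f I‖ ≤ 1) {s : ℝ} (hs : 1 < s) :
    Summable fun I : (Ideal (𝓞 K))⁰ ↦ dterm K f s I :=
  Summable.of_norm_bounded (summable_absNorm_rpow K hs) (norm_dterm_le K f hf s)

theorem indicator_dterm (f : (Ideal (𝓞 K))⁰ → ℂ) (s : ℝ) :
    Set.indicator ((Ideal (𝓞 K))⁰ : Set (Ideal (𝓞 K))) (dterm K f s) = dterm K f s := by
  funext I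
  by_cases h : I ∈ (Ideal (𝓞 K))⁰
  · exact Set.indicator_of_mem h _
  · rw [Set.indicator_of_notMem (by exact h), dterm_of_not_mem K f s h]

theorem summable_dterm (f : (Ideal (𝓞 K))⁰ → ℂ) (hf : ∀ I, ‖f I‖ ≤ 1) {s : ℝ} (hs : 1 < s) :
    Summable (dterm K f s) := by
  have h := summable_dterm_coe K f hf hs
  have h2 : Summable (Set.indicator ((Ideal (𝓞 K))⁰ : Set (Ideal (𝓞 K))) (dterm K f s)) :=
    summable_subtype_iff_indicator.mp h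
  rwa [indicator_dterm] at h2

theorem tsum_dterm (f : (Ideal (𝓞 K))⁰ → ℂ) (s : ℝ) :
    ∑' I : Ideal (𝓞 K), dterm K f s I =
      ∑' I : (Ideal (𝓞 K))⁰, f I * (((absNorm (I : Ideal (𝓞 K)) : ℝ) ^ (-s) : ℝ) : ℂ) := by
  have h := tsum_subtype ((Ideal (𝓞 K))⁰ : Set (Ideal (𝓞 K))) (dterm K f s)
  rw [indicator_dterm] at h
  rw [← h]
  exact tsum_congr fun I ↦ dterm_coe K f s I

/-! ### The joint limit of the finite Euler products -/

theorem tendsto_eulerProd (f : (Ideal (𝓞 K))⁰ →* ℂ) (hf : ∀ I, ‖f I‖ ≤ 1) {s : ℝ} (hs : 1 < s) :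
    Tendsto (fun TM : Finset (HeightOneSpectrum (𝓞 K)) × ℕ ↦
        ∏ v ∈ TM.1, ∑ j ∈ Finset.range (TM.2 + 1), dterm K f s v.asIdeal ^ j) atTop
      (𝓝 (∑' I : (Ideal (𝓞 K))⁰, f I * (((absNorm (I : Ideal (𝓞 K)) : ℝ) ^ (-s) : ℝ) : ℂ))) := by
  classical
  rw [← tsum_dterm]
  have hsum := (summable_dterm K f hf hs).hasSum
  let F : Finset (HeightOneSpectrum (𝓞 K)) × ℕ → Finset (Ideal (𝓞 K)) :=
    fun TM ↦ insert ⊥ (smoothFinset TM.1 TM.2)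
  have hmono : Monotone F := fun a b hab ↦
    Finset.insert_subset_insert _ (smoothFinset_mono hab.1 hab.2)
  have hex : ∀ I : Ideal (𝓞 K), ∃ TM, I ∈ F TM := by
    intro I
    by_cases hI : I = ⊥
    · exact ⟨(∅, 0), by simp [F, hI]⟩
    · obtain ⟨T, M, h⟩ := exists_mem_smoothFinset I hI
      exact ⟨(T, M), Finset.mem_insert_of_mem h⟩
  have hF : Tendsto F atTop atTop := tendsto_atTop_finset_of_monotone hmono hex
  have h := hsum.comp hF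
  refine h.congr fun TM ↦ ?_
  simp only [Function.comp_apply, F]
  have hbot : (⊥ : Ideal (𝓞 K)) ∉ smoothFinset TM.1 TM.2 := fun h ↦
    ne_zero_of_mem_smoothFinset h rfl
  rw [Finset.sum_insert hbot, dterm_of_not_mem K f s (by simp), zero_add]
  exact sum_smoothFinset (dterm K f s) (dterm_one K f s) (dterm_mul K f s) TM.1 TM.2

/-! ### The inequalities -/

theorem dterm_prime (f : (Ideal (𝓞 K))⁰ → ℂ) (s : ℝ) (v : HeightOneSpectrum (𝓞 K)) :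
    dterm K f s v.asIdeal = f (toNZ K v) * (((absNorm v.asIdeal : ℝ) ^ (-s) : ℝ) : ℂ) :=
  dterm_coe K f s (toNZ K v)

theorem norm_dterm_prime_le (f : (Ideal (𝓞 K))⁰ → ℂ) (hf : ∀ I, ‖f I‖ ≤ 1) (s : ℝ)
    (v : HeightOneSpectrum (𝓞 K)) :
    ‖dterm K f s v.asIdeal‖ ≤ (absNorm v.asIdeal : ℝ) ^ (-s) :=
  norm_dterm_le K f hf s (toNZ K v)

theorem re_dterm_prime (f : (Ideal (𝓞 K))⁰ → ℂ) (s : ℝ) (v : HeightOneSpectrum (𝓞 K)) :
    (dterm K f s v.asIdeal).re = (f (toNZ K v)).re * (absNorm v.asIdeal : ℝ) ^ (-s) := by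
  rw [dterm_prime, Complex.re_mul_ofReal]

theorem summable_re_prime (f : (Ideal (𝓞 K))⁰ → ℂ) (hf : ∀ I, ‖f I‖ ≤ 1) {s : ℝ} (hs : 1 < s) :
    Summable fun v : HeightOneSpectrum (𝓞 K) ↦
      (f (toNZ K v)).re * (absNorm v.asIdeal : ℝ) ^ (-s) := by
  refine Summable.of_norm_bounded (summable_prime_rpow K hs) fun v ↦ ?_
  have h0 : (0 : ℝ) ≤ (absNorm v.asIdeal : ℝ) ^ (-s) := by positivity
  rw [Real.norm_eq_abs, abs_mul, abs_of_nonneg h0]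
  exact mul_le_of_le_one_left h0 ((Complex.abs_re_le_norm _).trans (hf _))

/-- **(EP1)** Euler-product lower bound: for a multiplicative `f` with `‖f‖ ≤ 1` on nonzero
ideals and real `s > 1`, `exp (∑_P Re f(P) N(P)^(-s) - 3 C) ≤ ‖∑_I f(I) N(I)^(-s)‖`. -/
theorem exp_le_norm_tsum (f : (Ideal (𝓞 K))⁰ →* ℂ) (hf : ∀ I, ‖f I‖ ≤ 1) {s : ℝ} (hs : 1 < s) :
    Real.exp (∑' v : HeightOneSpectrum (𝓞 K),
        (f (toNZ K v)).re * (absNorm v.asIdeal : ℝ) ^ (-s) - 3 * primeC K) ≤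
      ‖∑' I : (Ideal (𝓞 K))⁰, f I * (((absNorm (I : Ideal (𝓞 K)) : ℝ) ^ (-s) : ℝ) : ℂ)‖ := by
  classical
  have hlim := (tendsto_eulerProd K f hf hs).norm
  have hA := (summable_re_prime K f hf hs).hasSum
  have hA' : Tendsto (fun TM : Finset (HeightOneSpectrum (𝓞 K)) × ℕ ↦
      Real.exp (∑ v ∈ TM.1, (f (toNZ K v)).re * (absNorm v.asIdeal : ℝ) ^ (-s) - 3 * primeC K))
      atTop (𝓝 (Real.exp (∑' v : HeightOneSpectrum (𝓞 K),
        (f (toNZ K v)).re * (absNorm v.asIdeal : ℝ) ^ (-s) - 3 * primeC K))) := by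
    have h1 : Tendsto (fun TM : Finset (HeightOneSpectrum (𝓞 K)) × ℕ ↦ TM.1) atTop atTop := by
      rw [← prod_atTop_atTop_eq]; exact tendsto_fst
    exact (Real.continuous_exp.tendsto _).comp ((hA.comp h1).sub_const _)
  refine le_of_tendsto_of_tendsto hA' hlim ?_
  filter_upwards [eventually_ge_atTop ((∅ : Finset (HeightOneSpectrum (𝓞 K))), 1)] with TM hTM
  have hM : 1 ≤ TM.2 := hTM.2
  rw [norm_prod]
  calc Real.exp (∑ v ∈ TM.1, (f (toNZ K v)).re * (absNorm v.asIdeal : ℝ) ^ (-s) - 3 * primeC K)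
      ≤ Real.exp (∑ v ∈ TM.1,
          ((dterm K f s v.asIdeal).re - 3 * ‖dterm K f s v.asIdeal‖ ^ 2)) := by
        apply Real.exp_le_exp.mpr
        rw [Finset.sum_sub_distrib, ← Finset.mul_sum]
        have e1 : ∑ v ∈ TM.1, (dterm K f s v.asIdeal).re =
            ∑ v ∈ TM.1, (f (toNZ K v)).re * (absNorm v.asIdeal : ℝ) ^ (-s) :=
          Finset.sum_congr rfl fun v _ ↦ re_dterm_prime K f s v
        have e2 : ∑ v ∈ TM.1, ‖dterm K f s v.asIdeal‖ ^ 2 ≤ primeC K :=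
          (Finset.sum_le_sum fun v _ ↦ pow_le_pow_left₀ (norm_nonneg _)
            (norm_dterm_prime_le K f hf s v) 2).trans (sum_prime_sq_le K TM.1 hs.le)
        rw [e1]; linarith
    _ = ∏ v ∈ TM.1, Real.exp ((dterm K f s v.asIdeal).re - 3 * ‖dterm K f s v.asIdeal‖ ^ 2) :=
        Real.exp_sum _ _
    _ ≤ ∏ v ∈ TM.1, ‖∑ j ∈ Finset.range (TM.2 + 1), dterm K f s v.asIdeal ^ j‖ := by
        apply Finset.prod_le_prod (fun v _ ↦ (Real.exp_pos _).le)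
        intro v _
        exact exp_le_norm_geom_sum
          ((norm_dterm_prime_le K f hf s v).trans (prime_rpow_le_half K v hs.le)) hM

theorem tsum_ne_zero (f : (Ideal (𝓞 K))⁰ →* ℂ) (hf : ∀ I, ‖f I‖ ≤ 1) {s : ℝ} (hs : 1 < s) :
    ∑' I : (Ideal (𝓞 K))⁰, f I * (((absNorm (I : Ideal (𝓞 K)) : ℝ) ^ (-s) : ℝ) : ℂ) ≠ 0 := by
  intro h
  have h2 := exp_le_norm_tsum K f hf hs
  rw [h, norm_zero] at h2
  exact absurd h2 (not_le.mpr (Real.exp_pos _))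

/-- **(EP1)**, logarithmic form. -/
theorem tsum_re_prime_le_log (f : (Ideal (𝓞 K))⁰ →* ℂ) (hf : ∀ I, ‖f I‖ ≤ 1) {s : ℝ}
    (hs : 1 < s) :
    ∑' v : HeightOneSpectrum (𝓞 K), (f (toNZ K v)).re * (absNorm v.asIdeal : ℝ) ^ (-s) ≤
      Real.log ‖∑' I : (Ideal (𝓞 K))⁰, f I * (((absNorm (I : Ideal (𝓞 K)) : ℝ) ^ (-s) : ℝ) : ℂ)‖
        + 3 * primeC K := by
  have h := exp_le_norm_tsum K f hf hs
  have h2 := Real.log_le_log (Real.exp_pos _) h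
  rw [Real.log_exp] at h2
  linarith

/-- **(EP1)** for a bounded `L`-value: if `‖L_f(s)‖ ≤ B` then the prime sum of `Re f` is at most
`log B + 3 C`. -/
theorem tsum_re_prime_le_of_norm_le (f : (Ideal (𝓞 K))⁰ →* ℂ) (hf : ∀ I, ‖f I‖ ≤ 1) {s : ℝ}
    (hs : 1 < s) {B : ℝ}
    (hB : ‖∑' I : (Ideal (𝓞 K))⁰, f I * (((absNorm (I : Ideal (𝓞 K)) : ℝ) ^ (-s) : ℝ) : ℂ)‖ ≤ B) :
    ∑' v : HeightOneSpectrum (𝓞 K), (f (toNZ K v)).re * (absNorm v.asIdeal : ℝ) ^ (-s) ≤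
      Real.log B + 3 * primeC K := by
  have h := tsum_re_prime_le_log K f hf hs
  have hpos : 0 < ‖∑' I : (Ideal (𝓞 K))⁰,
      f I * (((absNorm (I : Ideal (𝓞 K)) : ℝ) ^ (-s) : ℝ) : ℂ)‖ :=
    norm_pos_iff.mpr (tsum_ne_zero K f hf hs)
  have := Real.log_le_log hpos hB
  linarith

/-! ### The case `f = 1`: the Dedekind zeta function -/

/-- The Dedekind zeta function at real `s`, as a sum over nonzero ideals. -/
noncomputable def zetaSum (s : ℝ) : ℝ :=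
  ∑' I : (Ideal (𝓞 K))⁰, (absNorm (I : Ideal (𝓞 K)) : ℝ) ^ (-s)

/-- The prime zeta sum `∑_P N(P)^(-s)`. -/
noncomputable def primeSum (s : ℝ) : ℝ :=
  ∑' v : HeightOneSpectrum (𝓞 K), (absNorm v.asIdeal : ℝ) ^ (-s)

theorem tsum_one_eq (s : ℝ) :
    ∑' I : (Ideal (𝓞 K))⁰, (1 : (Ideal (𝓞 K))⁰ →* ℂ) I *
      (((absNorm (I : Ideal (𝓞 K)) : ℝ) ^ (-s) : ℝ) : ℂ) = ((zetaSum K s : ℝ) : ℂ) := by
  unfold zetaSum
  rw [Complex.ofReal_tsum]
  exact tsum_congr fun I ↦ by simp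

theorem one_le_zetaSum {s : ℝ} (hs : 1 < s) : 1 ≤ zetaSum K s := by
  have h := (summable_absNorm_rpow K hs).le_tsum (1 : (Ideal (𝓞 K))⁰) (fun _ _ ↦ by positivity)
  simpa [zetaSum] using h

theorem zetaSum_pos {s : ℝ} (hs : 1 < s) : 0 < zetaSum K s :=
  lt_of_lt_of_le one_pos (one_le_zetaSum K hs)

theorem primeSum_nonneg (s : ℝ) : 0 ≤ primeSum K s := tsum_nonneg fun _ ↦ by positivity

/-- **(EP2)**, lower half: `∑_P N(P)^(-s) ≤ log ζ_K(s) + 3 C`. -/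
theorem primeSum_le_log_zetaSum {s : ℝ} (hs : 1 < s) :
    primeSum K s ≤ Real.log (zetaSum K s) + 3 * primeC K := by
  have h := tsum_re_prime_le_log K (1 : (Ideal (𝓞 K))⁰ →* ℂ) (fun I ↦ by simp) hs
  rw [tsum_one_eq, Complex.norm_real, Real.norm_of_nonneg (zetaSum_pos K hs).le] at h
  simpa [primeSum] using h

theorem tendsto_eulerProd_real {s : ℝ} (hs : 1 < s) :
    Tendsto (fun TM : Finset (HeightOneSpectrum (𝓞 K)) × ℕ ↦
        ∏ v ∈ TM.1, ∑ j ∈ Finset.range (TM.2 + 1), ((absNorm v.asIdeal : ℝ) ^ (-s)) ^ j) atTop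
      (𝓝 (zetaSum K s)) := by
  have h := tendsto_eulerProd K (1 : (Ideal (𝓞 K))⁰ →* ℂ) (fun I ↦ by simp) hs
  rw [tsum_one_eq] at h
  have h2 := (Complex.continuous_re.tendsto _).comp h
  rw [Complex.ofReal_re] at h2
  refine h2.congr fun TM ↦ ?_
  simp only [Function.comp_apply]
  have : ∀ v : HeightOneSpectrum (𝓞 K),
      dterm K (1 : (Ideal (𝓞 K))⁰ →* ℂ) s v.asIdeal = (((absNorm v.asIdeal : ℝ) ^ (-s) : ℝ) : ℂ) :=
    fun v ↦ by rw [dterm_prime]; simp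
  simp_rw [this]
  norm_cast

/-- **(EP2)**, upper half: `ζ_K(s) ≤ exp (∑_P N(P)^(-s) + 2 C)`. -/
theorem zetaSum_le_exp {s : ℝ} (hs : 1 < s) :
    zetaSum K s ≤ Real.exp (primeSum K s + 2 * primeC K) := by
  classical
  refine le_of_tendsto' (tendsto_eulerProd_real K hs) fun TM ↦ ?_
  calc ∏ v ∈ TM.1, ∑ j ∈ Finset.range (TM.2 + 1), ((absNorm v.asIdeal : ℝ) ^ (-s)) ^ j
      ≤ ∏ v ∈ TM.1, Real.exp ((absNorm v.asIdeal : ℝ) ^ (-s) +
          2 * ((absNorm v.asIdeal : ℝ) ^ (-s)) ^ 2) := by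
        apply Finset.prod_le_prod
        · intro v _
          exact Finset.sum_nonneg fun j _ ↦ by positivity
        · intro v _
          exact geom_sum_le_exp (by positivity) (prime_rpow_le_half K v hs.le) _
    _ = Real.exp (∑ v ∈ TM.1, ((absNorm v.asIdeal : ℝ) ^ (-s) +
          2 * ((absNorm v.asIdeal : ℝ) ^ (-s)) ^ 2)) := (Real.exp_sum _ _).symm
    _ ≤ Real.exp (primeSum K s + 2 * primeC K) := by
        apply Real.exp_le_exp.mpr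
        rw [Finset.sum_add_distrib, ← Finset.mul_sum]
        have e1 : ∑ v ∈ TM.1, (absNorm v.asIdeal : ℝ) ^ (-s) ≤ primeSum K s :=
          (summable_prime_rpow K hs).sum_le_tsum TM.1 (fun _ _ ↦ by positivity)
        have e2 := sum_prime_sq_le K TM.1 hs.le
        linarith

/-- **(EP2)**: `|∑_P N(P)^(-s) - log ζ_K(s)| ≤ 3 C`. -/
theorem abs_primeSum_sub_log_zetaSum_le {s : ℝ} (hs : 1 < s) :
    |primeSum K s - Real.log (zetaSum K s)| ≤ 3 * primeC K := by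
  have h1 := primeSum_le_log_zetaSum K hs
  have h2 := Real.log_le_log (zetaSum_pos K hs) (zetaSum_le_exp K hs)
  rw [Real.log_exp] at h2
  have h3 := primeC_nonneg K
  rw [abs_le]
  constructor <;> linarith

end Fermat.Agent.S14.H81
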