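import Mathlib

/-!
# S14 / package D1 (helper81): Dirichlet series over ideals of a number field

`Fermat.Agent.S14.H81`: summability of `∑_I N(I)^(-s)` over nonzero ideals and over primes,
and the identification of the ideal sum with Mathlib's `NumberField.dedekindZeta`.
-/

set_option autoImplicit false

open Filter Topology NumberField Ideal nonZeroDivisors Asymptotics

namespace Fermat.Agent.S14.H81

variable (K : Type*) [Field K] [NumberField K]

/-- The counting coefficients of the Dedekind zeta function. -/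
noncomputable def idealCount (n : ℕ) : ℝ := Nat.card {I : Ideal (𝓞 K) // absNorm I = n}

theorem idealCount_nonneg (n : ℕ) : 0 ≤ idealCount K n := Nat.cast_nonneg _

theorem dedekindZeta_eq_LSeries (s : ℂ) :
    dedekindZeta K s = LSeries (fun n ↦ (idealCount K n : ℂ)) s := by
  unfold dedekindZeta idealCount
  rfl

theorem tendsto_sum_idealCount_div :
    Tendsto (fun n : ℕ ↦ (∑ k ∈ Finset.Icc 1 n, idealCount K k) / (n : ℝ)) atTop
      (𝓝 (dedekindZeta_residue K)) := by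
  refine ((Ideal.tendsto_norm_le_div_atTop₀ K).comp tendsto_natCast_atTop_atTop).congr fun n ↦ ?_
  simp only [Function.comp_apply, Nat.cast_le, idealCount, ← Nat.cast_sum]
  congr
  rw [← add_left_inj 1, ← card_norm_le_eq_card_norm_le_add_one,
    show Finset.Icc 1 n = Finset.Ioc 0 n from Finset.Icc_succ_left_eq_Ioc _ _,
    show 1 = Nat.card {I : Ideal (𝓞 K) // absNorm I = 0} by simp [Ideal.absNorm_eq_zero_iff],
    Finset.sum_Ioc_add_eq_sum_Icc (n.zero_le),
    ← Finset.card_preimage_eq_sum_card_image_eq (fun k _ ↦ finite_setOfPred_absNorm_eq k)]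
  simp [Set.coe_eq_subtype]

theorem lseriesSummable_idealCount {s : ℝ} (hs : 1 < s) :
    LSeriesSummable (fun n ↦ (idealCount K n : ℂ)) s := by
  refine LSeriesSummable_of_sum_norm_bigO_and_nonneg ?_ (idealCount_nonneg K) zero_le_one
    (by simpa using hs)
  exact isBigO_atTop_natCast_rpow_of_tendsto_div_rpow (by simpa using tendsto_sum_idealCount_div K)

/-- The real Dirichlet series coefficients `idealCount n * n^(-s)` (zero at `n = 0`). -/
noncomputable def zetaTerm (s : ℝ) (n : ℕ) : ℝ :=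
  if n = 0 then 0 else idealCount K n * (n : ℝ) ^ (-s)

theorem zetaTerm_nonneg (s : ℝ) (n : ℕ) : 0 ≤ zetaTerm K s n := by
  unfold zetaTerm
  split_ifs
  · exact le_rfl
  · exact mul_nonneg (idealCount_nonneg K n) (by positivity)

theorem term_idealCount_eq (s : ℝ) (n : ℕ) :
    LSeries.term (fun n ↦ (idealCount K n : ℂ)) (s : ℂ) n = ((zetaTerm K s n : ℝ) : ℂ) := by
  unfold zetaTerm
  rw [LSeries.term_def]
  split_ifs with hn
  · simp
  · rw [Complex.ofReal_mul, Real.rpow_neg (Nat.cast_nonneg n), Complex.ofReal_inv,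
      Complex.ofReal_cpow (Nat.cast_nonneg n), div_eq_mul_inv]
    simp

theorem summable_zetaTerm {s : ℝ} (hs : 1 < s) : Summable (zetaTerm K s) := by
  have h := lseriesSummable_idealCount K hs
  unfold LSeriesSummable at h
  rw [funext (term_idealCount_eq K s)] at h
  exact Complex.summable_ofReal.mp h

theorem tsum_zetaTerm_eq_dedekindZeta (s : ℝ) :
    ((∑' n, zetaTerm K s n : ℝ) : ℂ) = dedekindZeta K s := by
  rw [dedekindZeta_eq_LSeries, LSeries, Complex.ofReal_tsum]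
  exact tsum_congr fun n ↦ (term_idealCount_eq K s n).symm

/-- The fibre of the norm over `n` among nonzero ideals. -/
theorem card_fiber_eq (n : ℕ) (hn : n ≠ 0) :
    Nat.card {I : (Ideal (𝓞 K))⁰ // absNorm (I : Ideal (𝓞 K)) = n} =
      Nat.card {I : Ideal (𝓞 K) // absNorm I = n} := by
  refine Nat.card_congr ⟨fun I ↦ ⟨I.1.1, I.2⟩, fun I ↦ ⟨⟨I.1, ?_⟩, I.2⟩, fun I ↦ rfl, fun I ↦ rfl⟩
  rw [← absNorm_ne_zero_iff_mem_nonZeroDivisors, I.2]
  exact hn

theorem finite_fiber (n : ℕ) :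
    Finite {I : (Ideal (𝓞 K))⁰ // absNorm (I : Ideal (𝓞 K)) = n} := by
  have : Finite {I : Ideal (𝓞 K) // absNorm I = n} := finite_setOfPred_absNorm_eq n
  exact Finite.of_injective (fun I ↦ (⟨I.1.1, I.2⟩ : {I : Ideal (𝓞 K) // absNorm I = n}))
    (fun I J h ↦ by
      apply Subtype.ext; apply Subtype.ext
      exact congrArg (fun x : {I : Ideal (𝓞 K) // absNorm I = n} ↦ x.1) h)

theorem tsum_fiber (s : ℝ) (n : ℕ) :
    ∑' I : {I : (Ideal (𝓞 K))⁰ // absNorm (I : Ideal (𝓞 K)) = n},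
      ((absNorm (I.1 : Ideal (𝓞 K)) : ℝ) ^ (-s)) = zetaTerm K s n := by
  have := finite_fiber K n
  have h1 : ∀ I : {I : (Ideal (𝓞 K))⁰ // absNorm (I : Ideal (𝓞 K)) = n},
      ((absNorm (I.1 : Ideal (𝓞 K)) : ℝ) ^ (-s)) = (n : ℝ) ^ (-s) := fun I ↦ by rw [I.2]
  rw [tsum_congr h1]
  have := Fintype.ofFinite {I : (Ideal (𝓞 K))⁰ // absNorm (I : Ideal (𝓞 K)) = n}
  rw [tsum_fintype, Finset.sum_const, Finset.card_univ, nsmul_eq_mul, ← Nat.card_eq_fintype_card]
  unfold zetaTerm idealCount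
  split_ifs with hn
  · subst hn
    have : IsEmpty {I : (Ideal (𝓞 K))⁰ // absNorm (I : Ideal (𝓞 K)) = 0} :=
      ⟨fun I ↦ absNorm_ne_zero_of_nonZeroDivisors I.1 I.2⟩
    simp
  · rw [card_fiber_eq K n hn]

/-- **(EP0)** The Dirichlet series over nonzero ideals converges for `s > 1`, and its sum is the
real series with the counting coefficients. -/
theorem summable_absNorm_rpow_and_tsum {s : ℝ} (hs : 1 < s) :
    Summable (fun I : (Ideal (𝓞 K))⁰ ↦ (absNorm (I : Ideal (𝓞 K)) : ℝ) ^ (-s)) ∧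
      ∑' I : (Ideal (𝓞 K))⁰, (absNorm (I : Ideal (𝓞 K)) : ℝ) ^ (-s) = ∑' n, zetaTerm K s n := by
  let ν : (Ideal (𝓞 K))⁰ → ℕ := fun I ↦ absNorm (I : Ideal (𝓞 K))
  let e := Equiv.sigmaFiberEquiv ν
  let g : (Ideal (𝓞 K))⁰ → ℝ := fun I ↦ (absNorm (I : Ideal (𝓞 K)) : ℝ) ^ (-s)
  have hg : ∀ x, 0 ≤ (g ∘ e) x := fun x ↦ Real.rpow_nonneg (Nat.cast_nonneg _) _
  have hfib : ∀ n : ℕ, Summable fun y : {I : (Ideal (𝓞 K))⁰ // ν I = n} ↦ (g ∘ e) ⟨n, y⟩ := by
    intro n
    have := finite_fiber K n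
    exact Summable.of_finite
  have hsum : ∀ n : ℕ, ∑' y : {I : (Ideal (𝓞 K))⁰ // ν I = n}, (g ∘ e) ⟨n, y⟩ = zetaTerm K s n :=
    fun n ↦ tsum_fiber K s n
  have hS : Summable (g ∘ e) := by
    rw [summable_sigma_of_nonneg hg]
    refine ⟨hfib, ?_⟩
    rw [funext hsum]
    exact summable_zetaTerm K hs
  refine ⟨(e.summable_iff).mp hS, ?_⟩
  rw [← e.tsum_eq g]
  exact (Summable.tsum_sigma' hfib hS).trans (tsum_congr hsum)

theorem summable_absNorm_rpow {s : ℝ} (hs : 1 < s) :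
    Summable (fun I : (Ideal (𝓞 K))⁰ ↦ (absNorm (I : Ideal (𝓞 K)) : ℝ) ^ (-s)) :=
  (summable_absNorm_rpow_and_tsum K hs).1

/-- The ideal sum is the Dedekind zeta function (at real `s > 1`). -/
theorem ofReal_tsum_absNorm_rpow {s : ℝ} (hs : 1 < s) :
    ((∑' I : (Ideal (𝓞 K))⁰, (absNorm (I : Ideal (𝓞 K)) : ℝ) ^ (-s) : ℝ) : ℂ) =
      dedekindZeta K s := by
  rw [(summable_absNorm_rpow_and_tsum K hs).2, tsum_zetaTerm_eq_dedekindZeta]

end Fermat.Agent.S14.H81
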